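/-
S16 / QEP bridge (T1), part 4 (helper16): **the Fricke involution `wFF N` of `FF ℚ N` preserves the
Gauss valuation ring** of a DVR `O ⊆ ℚ` for which `(∗)` holds (`𝔪_O Rfin` prime) — the hypotheses
`hbase`, `hj`, `htr` of `S16/GaussUnique.map_mem_gaussVS_iff` and of the abstract two-cusp lemma
`S16/TwoCusp.exists_pow_smul_eq_of_map` for `w := wFF N` — and the concrete two-cusp lemma for
`O = ℤ_(ℓ)`, `ℓ ∤ N`.
-/
import Mathlib
import Fermat.Agent.S16.Bridge.AtkinLehnerFF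
import Fermat.Agent.S16.TwoCusp
import Fermat.Agent.S16.GaussUniqueRat

set_option autoImplicit false
set_option linter.unusedSectionVars false
set_option linter.style.haveILetI false

open ModularCurve Fermat.Agent.S28.Gauss Fermat.Agent.N4.Chart Fermat.Agent.N4.Setting
  Fermat.Agent.N4.FibreEmbedding Fermat.Agent.N4F.E.GaussDVR

noncomputable section

namespace Fermat.Agent.S16.Bridge

variable (N : ℕ) [NeZero N] (O : Subring ℚ) [IsDiscreteValuationRing ↥O] [IsFractionRing ↥O ℚ]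

theorem qExpand_congr {R : Type*} [CommRing R] {M M' : ℕ} [NeZero M] [NeZero M'] (h : M = M')
    (x : LaurentSeries R) : qExpand R M x = qExpand R M' x := by
  subst h
  rfl

/-- The Fricke involution as a ring endomorphism. -/
def wFFhom : FF ℚ N →+* FF ℚ N := (wFF N).toAlgHom.toRingHom

theorem wFFhom_apply (x : FF ℚ N) : wFFhom N x = wFF N x := rfl

omit [IsDiscreteValuationRing ↥O] [IsFractionRing ↥O ℚ] in
/-- Every ring homomorphism from a subring of `ℚ` to a field of characteristic zero is the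
restriction of the rational cast. -/
theorem ringHom_subring_rat {F : Type*} [Field F] [CharZero F] (f : ↥O →+* F) (a : ↥O) :
    f a = (((a : ℚ) : ℚ) : F) := by
  have h : (((a : ℚ).den : ℕ) : ↥O) * a = (((a : ℚ).num : ℤ) : ↥O) := by
    apply Subtype.ext
    push_cast
    exact Rat.den_mul_eq_num (a : ℚ)
  have h2 := congrArg f h
  rw [map_mul, map_natCast, map_intCast] at h2
  have hden : (((a : ℚ).den : ℕ) : F) ≠ 0 := Nat.cast_ne_zero.mpr (a : ℚ).den_ne_zero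
  rw [Rat.cast_def, eq_div_iff hden, mul_comm]
  exact h2

/-- `wFF` fixes the constants of `O` (for every ring homomorphism `O → FF ℚ N`, in particular for
every `Algebra ↥O (FF ℚ N)` instance). -/
theorem wFF_ringHom (f : ↥O →+* FF ℚ N) (a : ↥O) : wFF N (f a) = f a := by
  rw [ringHom_subring_rat O f a, map_ratCast]

theorem jF_eq_jdF : jF ℚ N = jdF ℚ N (one_dvd N) := by
  apply Subtype.ext
  rw [coe_jF, coe_jdF, qExpand_one_apply]

/-- `w(j) = j(q^N)`. -/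
theorem coe_wFF_jF : ((wFF N (jF ℚ N) : FF ℚ N) : LaurentSeries ℚ) = qExpand ℚ N (jqModC ℚ) := by
  haveI := neZero_div N (one_dvd N)
  rw [jF_eq_jdF, wFF_jdF, coe_jdF]
  exact qExpand_congr (Nat.div_one N) _

theorem coe_wFF_jF_emb :
    ((wFF N (jF ℚ N) : FF ℚ N) : LaurentSeries ℚ) = emb ↥O ℚ (qExpand ↥O N (jqModC ↥O)) := by
  rw [coe_wFF_jF, emb_jd ℚ O N]

theorem wFF_jF_mem : wFF N (jF ℚ N) ∈ gaussSubalgebra ℚ N O := by
  rw [mem_gaussSubalgebra_iff, coe_wFF_jF_emb N O]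
  exact emb_mem_gaussRing _

theorem theta_wFF_jF :
    theta ℚ N O ⟨wFF N (jF ℚ N), wFF_jF_mem N O⟩ = qExpand (IsLocalRing.ResidueField ↥O) N (jqModC (IsLocalRing.ResidueField ↥O)) := by
  rw [theta_of_emb ℚ N O _ _ (coe_wFF_jF_emb N O), red_qExpand, red_jqModC]

theorem transcendental_theta_wFF_jF :
    Transcendental (IsLocalRing.ResidueField ↥O) (theta ℚ N O ⟨wFF N (jF ℚ N), wFF_jF_mem N O⟩) := by
  rw [theta_wFF_jF, transcendental_iff_injective]
  exact Fermat.Agent.N4.ModPolyDescent.aeval_qExpand_jqModC_injective N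

/-- **The Fricke involution preserves the Gauss valuation ring** (given `(∗)`). -/
theorem wFF_mem_gaussVS_iff (hprime : (fibreIdeal ℚ N O (Rfin ℚ N O)).IsPrime) (x : FF ℚ N) :
    wFF N x ∈ gaussVS ℚ N O ↔ x ∈ gaussVS ℚ N O :=
  Fermat.Agent.S16.GaussUnique.map_mem_gaussVS_iff hprime (wFFhom N)
    (fun a => by rw [wFFhom_apply]; exact wFF_ringHom N O _ a) (wFF_jF_mem N O)
    (transcendental_theta_wFF_jF N O) x

/-- **Two-cusp lemma for the Fricke involution** (abstract form, given `(∗)`): if the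
`q`-expansion of `x` has coefficients in `O` and `ϖ^t · w(x)` has `q`-expansion `S ∈ O((q))`,
then `ϖ^t` divides `S` coefficientwise. -/
theorem twoCusp_wFF (hprime : (fibreIdeal ℚ N O (Rfin ℚ N O)).IsPrime)
    {ϖ : ↥O} (hϖ : Irreducible ϖ) (t : ℕ)
    {x : FF ℚ N} (hx : ((x : FF ℚ N) : LaurentSeries ℚ) ∈ gaussRing ↥O ℚ)
    {S : LaurentSeries ↥O}
    (hS : algebraMap ↥O ℚ (ϖ ^ t) • ((wFF N x : FF ℚ N) : LaurentSeries ℚ) = emb ↥O ℚ S) :
    ∃ S' : LaurentSeries ↥O, S = ϖ ^ t • S' :=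
  Fermat.Agent.S16.TwoCusp.exists_pow_smul_eq_of_map hprime (wFFhom N)
    (fun a => by rw [wFFhom_apply]; exact wFF_ringHom N O _ a) (wFF_jF_mem N O)
    (transcendental_theta_wFF_jF N O) hϖ t hx hS

/-! ### Consumer form for quotients of forms -/

section Forms

open UpperHalfPlane CongruenceSubgroup

local notation "ofQ" => HahnSeries.ofPowerSeries ℤ ℚ

variable {N}

/-- **The `q`-expansion principle for the Fricke involution (consumer form).**
`A, B` (weight `k`) and `A', B'` (weight `k'`) form-like of level `Γ₀(N)` with rational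
`q`-expansions `a, b, a', b'`, `A'/B' = (A/B) ∘ W_N` (cross-multiplied), and `(∗)` for `O`.
If `a / b` lies in the Gauss ring of `O` (e.g. `a, b ∈ O⟦q⟧` with `b̄ ≠ 0`), so does `a' / b'`. -/
theorem fricke_gauss_of_prime (hprime : (fibreIdeal ℚ N O (Rfin ℚ N O)).IsPrime)
    {k k' : ℕ} {A B A' B' : ℍ → ℂ}
    (hA : IsFormLike (Gamma0 N) k A) (hB : IsFormLike (Gamma0 N) k B)
    (hA' : IsFormLike (Gamma0 N) k' A') (hB' : IsFormLike (Gamma0 N) k' B')
    (hB0 : B ≠ 0) (hB'0 : B' ≠ 0) {a b a' b' : PowerSeries ℚ}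
    (ha : HasRatQ A a) (hb : HasRatQ B b) (ha' : HasRatQ A' a') (hb' : HasRatQ B' b')
    (h : ∀ z : ℍ, A' z * B (wH N z) = B' z * A (wH N z))
    (hint : (ofQ a / ofQ b : LaurentSeries ℚ) ∈ gaussRing ↥O ℚ) :
    (ofQ a' / ofQ b' : LaurentSeries ℚ) ∈ gaussRing ↥O ℚ := by
  have hx : ratioFF hA hB hB0 ha hb ∈ gaussVS ℚ N O := by
    rw [mem_gaussVS_iff, mem_gaussSubalgebra_iff, coe_ratioFF]
    exact hint
  have hw : wFF N (ratioFF hA hB hB0 ha hb) ∈ gaussVS ℚ N O :=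
    (wFF_mem_gaussVS_iff N O hprime _).mpr hx
  have e := wFF_ratioFF hA hB hA' hB' hB0 hB'0 ha hb ha' hb' h
  rw [e, mem_gaussVS_iff, mem_gaussSubalgebra_iff, coe_ratioFF] at hw
  exact hw

end Forms

/-! ### The rational base `O = ℤ_(ℓ)`, `ℓ ∤ N` (all primes `ℓ`, including `2` and `3`) -/

section Rat

open Fermat.Agent.S28.LocalizedInt UpperHalfPlane CongruenceSubgroup

variable (ℓ : ℕ) [hℓ : Fact ℓ.Prime]

local notation "ofQ" => HahnSeries.ofPowerSeries ℤ ℚ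

/-- `w(V) = V` over `ℤ_(ℓ)`, `ℓ ∤ N`. -/
theorem wFF_mem_gaussVS_iff_rat (hℓN : ¬ ℓ ∣ N) (x : FF ℚ N) :
    wFF N x ∈ gaussVS ℚ N (GaloisRep.ratLocalizedAt ℓ) ↔
      x ∈ gaussVS ℚ N (GaloisRep.ratLocalizedAt ℓ) :=
  wFF_mem_gaussVS_iff N (GaloisRep.ratLocalizedAt ℓ)
    (Fermat.Agent.S16.GaussUniqueRat.isPrime_fibreIdeal_Rfin N ℓ hℓN) x

variable {N}

/-- `fricke_gauss_of_prime` over `ℤ_(ℓ)`, `ℓ ∤ N`. -/
theorem fricke_gauss (hℓN : ¬ ℓ ∣ N) {k k' : ℕ} {A B A' B' : ℍ → ℂ}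
    (hA : IsFormLike (Gamma0 N) k A) (hB : IsFormLike (Gamma0 N) k B)
    (hA' : IsFormLike (Gamma0 N) k' A') (hB' : IsFormLike (Gamma0 N) k' B')
    (hB0 : B ≠ 0) (hB'0 : B' ≠ 0) {a b a' b' : PowerSeries ℚ}
    (ha : HasRatQ A a) (hb : HasRatQ B b) (ha' : HasRatQ A' a') (hb' : HasRatQ B' b')
    (h : ∀ z : ℍ, A' z * B (wH N z) = B' z * A (wH N z))
    (hint : (ofQ a / ofQ b : LaurentSeries ℚ) ∈ gaussRing ↥(GaloisRep.ratLocalizedAt ℓ) ℚ) :
    (ofQ a' / ofQ b' : LaurentSeries ℚ) ∈ gaussRing ↥(GaloisRep.ratLocalizedAt ℓ) ℚ :=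
  fricke_gauss_of_prime (GaloisRep.ratLocalizedAt ℓ)
    (Fermat.Agent.S16.GaussUniqueRat.isPrime_fibreIdeal_Rfin N ℓ hℓN)
    hA hB hA' hB' hB0 hB'0 ha hb ha' hb' h hint

end Rat

end Fermat.Agent.S16.Bridge
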