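/-
S16 / QEP bridge (T1), part 5 (helper16): **link between the slash operator `∣[k] wP p` of
`S16/AtkinLehnerU` (helper20) and the Fricke involution `wFF p` of the bridge**, and the final
consumer statement of the `q`-expansion principle in `ModularForm` language.

* `wP_smul : wP p • z = wH p z`;
* `slash_wP_apply : (f ∣[k] wP p) z = f (wH p z) * p ^ (k - 1) * (p z) ^ (-k)`;
* `slashW_cross : (slashW p A) z * B (wH p z) = (slashW p B) z * A (wH p z)` (same weight);
* `fricke_gauss_slashW` : for `A, B : ModularForm (Γ₀(p)) k` with rational `q`-expansions `a, b`, and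
  `a', b'` the rational `q`-expansions of `A|w_p, B|w_p`, `ℓ ∤ p`:
  `a / b ∈ gaussRing ℤ_(ℓ)`  ⇒  `a' / b' ∈ gaussRing ℤ_(ℓ)`.
-/
import Mathlib
import Fermat.Agent.S16.Bridge.FrickeGauss
import Fermat.Agent.S16.AtkinLehnerU

set_option autoImplicit false
set_option linter.unusedSectionVars false
set_option linter.style.haveILetI false

open ModularCurve Fermat.Agent.S28.Gauss Fermat.Agent.N4.Setting
open UpperHalfPlane ModularForm MatrixGroups CongruenceSubgroup
open Fermat.Agent.S16.AtkinLehnerU Fermat.Agent.M2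

noncomputable section

namespace Fermat.Agent.S16.Bridge

variable (p : ℕ) [NeZero p]

theorem num_wP (z : ℍ) : num (wP p) z = -1 := by
  simp [num, wP]

theorem denom_wP (z : ℍ) : denom (wP p) z = (p : ℂ) * z := by
  simp [denom, wP]

/-- `w_p • z = -1 / (p z)`. -/
theorem wP_smul (z : ℍ) : wP p • z = wH p z := by
  apply UpperHalfPlane.ext
  rw [UpperHalfPlane.coe_smul_of_det_pos (det_wP_pos p), num_wP, denom_wP, coe_wH]

/-- The slash by `w_p` in terms of the Fricke involution of `ℍ`. -/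
theorem slash_wP_apply (k : ℤ) (f : ℍ → ℂ) (z : ℍ) :
    (f ∣[k] wP p) z = f (wH p z) * (p : ℂ) ^ (k - 1) * ((p : ℂ) * z) ^ (-k) := by
  rw [ModularForm.slash_apply, wP_smul, denom_wP]
  have hσ : σ (wP p) = ContinuousAlgEquiv.refl ℝ ℂ := by
    rw [σ, if_pos (det_wP_pos p)]
  have habs : |((wP p).det : ℝ)| = p := by
    rw [det_wP]; exact abs_of_nonneg (Nat.cast_nonneg p)
  rw [hσ, habs]
  simp

/-- **The cross-multiplied Fricke identity** for two forms of the same weight. -/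
theorem slashW_cross {k : ℤ} (A B : ModularForm (Gamma0 p) k) (z : ℍ) :
    (slashW p A) z * B (wH p z) = (slashW p B) z * A (wH p z) := by
  have hA : (slashW p A) z = (⇑A ∣[k] wP p) z := rfl
  have hB : (slashW p B) z = (⇑B ∣[k] wP p) z := rfl
  rw [hA, hB, slash_wP_apply, slash_wP_apply]
  ring

theorem slashW_ne_zero {k : ℤ} (B : ModularForm (Gamma0 p) k) (hB0 : (B : ℍ → ℂ) ≠ 0) :
    (slashW p B : ℍ → ℂ) ≠ 0 := by
  intro h
  apply hB0
  funext z₀
  have h1 := congrFun h (wH p z₀)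
  have h2 : (slashW p B) (wH p z₀) = (⇑B ∣[k] wP p) (wH p z₀) := rfl
  rw [h2, slash_wP_apply, wH_wH] at h1
  have hp : (p : ℂ) ≠ 0 := Nat.cast_ne_zero.mpr (NeZero.ne p)
  have hz : ((wH p z₀ : ℍ) : ℂ) ≠ 0 := (wH p z₀).ne_zero
  have h3 : ((p : ℂ) ^ (k - 1)) ≠ 0 := zpow_ne_zero _ hp
  have h4 : ((p : ℂ) * ((wH p z₀ : ℍ) : ℂ)) ^ (-k) ≠ 0 := zpow_ne_zero _ (mul_ne_zero hp hz)
  simp only [Pi.zero_apply] at h1 ⊢
  rcases mul_eq_zero.mp h1 with h1 | h1
  · rcases mul_eq_zero.mp h1 with h1 | h1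
    · exact h1
    · exact absurd h1 h3
  · exact absurd h1 h4

section Rat

variable (ℓ : ℕ) [hℓ : Fact ℓ.Prime]

local notation "ofQ" => HahnSeries.ofPowerSeries ℤ ℚ

/-- **`q`-expansion principle for `w_p` (final consumer form).**  `A, B ∈ M_k(Γ₀(p))` with rational
`q`-expansions `a, b`; `a', b'` the (rational) `q`-expansions of `A|w_p`, `B|w_p`; `ℓ ∤ p`.
If `a / b` lies in the Gauss ring of `ℤ_(ℓ)` then so does `a' / b'`. -/
theorem fricke_gauss_slashW (hℓp : ¬ ℓ ∣ p) {k : ℕ} (A B : ModularForm (Gamma0 p) (k : ℤ))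
    (hB0 : (B : ℍ → ℂ) ≠ 0) {a b a' b' : PowerSeries ℚ}
    (ha : HasRatQ A a) (hb : HasRatQ B b)
    (ha' : HasRatQ (slashW p A) a') (hb' : HasRatQ (slashW p B) b')
    (hint : (ofQ a / ofQ b : LaurentSeries ℚ) ∈ gaussRing ↥(GaloisRep.ratLocalizedAt ℓ) ℚ) :
    (ofQ a' / ofQ b' : LaurentSeries ℚ) ∈ gaussRing ↥(GaloisRep.ratLocalizedAt ℓ) ℚ :=
  fricke_gauss ℓ hℓp (IsFormLike.ofModularForm A) (IsFormLike.ofModularForm B)
    (IsFormLike.ofModularForm (slashW p A)) (IsFormLike.ofModularForm (slashW p B))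
    hB0 (slashW_ne_zero p B hB0) ha hb ha' hb' (slashW_cross p A B) hint

end Rat

end Fermat.Agent.S16.Bridge
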