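/-
S16 / QEP bridge (T1), part 3a (helper16): **the Atkin–Lehner (Fricke) involution on `WH (Γ₀(N))`.**

`wH N z = -1 / (N z) = S • (N z)` on `ℍ`; `f ↦ f ∘ wH N` is an involutive `ℂ`-algebra automorphism
`wWH N` of the ring `WH (Γ₀(N))` of weakly holomorphic modular functions of level `Γ₀(N)`.
-/
import Mathlib
import Fermat.Agent.S24.FieldIsoFinal

set_option autoImplicit false
set_option linter.unusedSectionVars false

namespace Fermat.Agent.S16.Bridge

open UpperHalfPlane ModularForm MatrixGroups CongruenceSubgroup Filter Function Asymptotics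
open Fermat.Agent.M2 Fermat.Agent.S24.QExp
open scoped Manifold Topology Real

local notation "Δ" => ModularForm.discriminant

variable (N : ℕ) [NeZero N]

/-- The Fricke involution `z ↦ -1 / (N z)` of the upper half plane. -/
noncomputable def wH (z : ℍ) : ℍ := ModularGroup.S • JN.scaleH N z

theorem coe_wH (z : ℍ) : ((wH N z : ℍ) : ℂ) = -1 / ((N : ℂ) * z) := by
  rw [wH, UpperHalfPlane.modular_S_smul]
  simp [JN.coe_scaleH, neg_div]

theorem wH_wH (z : ℍ) : wH N (wH N z) = z := by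
  apply UpperHalfPlane.ext
  rw [coe_wH, coe_wH]
  have hN : (N : ℂ) ≠ 0 := Nat.cast_ne_zero.mpr (NeZero.ne N)
  have hz : (z : ℂ) ≠ 0 := z.ne_zero
  field_simp

/-- `S γ' S⁻¹` for `γ' = diag(N,1) γ diag(N,1)⁻¹`: the Atkin–Lehner conjugate of `γ ∈ Γ₀(N)`. -/
noncomputable def wConj (γ : SL(2, ℤ)) (hγ : γ ∈ Gamma0 N) : SL(2, ℤ) :=
  ModularGroup.S * JN.conjGamma0 N γ hγ * ModularGroup.S⁻¹

theorem wH_smul (γ : SL(2, ℤ)) (hγ : γ ∈ Gamma0 N) (z : ℍ) :
    wH N (γ • z) = wConj N γ hγ • wH N z := by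
  rw [wH, wH, JN.scaleH_smul N γ hγ, wConj, mul_smul, mul_smul, inv_smul_smul]

theorem coe_wConj (γ : SL(2, ℤ)) (hγ : γ ∈ Gamma0 N) :
    (wConj N γ hγ : Matrix (Fin 2) (Fin 2) ℤ) =
      !![γ 1 1, -(γ 1 0 / N); -(N * γ 0 1), γ 0 0] := by
  have h : (JN.conjGamma0 N γ hγ : Matrix (Fin 2) (Fin 2) ℤ) =
      !![γ 0 0, N * γ 0 1; γ 1 0 / N, γ 1 1] := rfl
  rw [wConj, Matrix.SpecialLinearGroup.coe_mul, Matrix.SpecialLinearGroup.coe_mul,
    Matrix.SpecialLinearGroup.coe_inv, ModularGroup.coe_S, Matrix.adjugate_fin_two_of, h]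
  ext i j
  fin_cases i <;> fin_cases j <;> simp [Matrix.mul_apply, Fin.sum_univ_two]

theorem wConj_mem (γ : SL(2, ℤ)) (hγ : γ ∈ Gamma0 N) : wConj N γ hγ ∈ Gamma0 N := by
  rw [Gamma0_mem]
  have h : ((wConj N γ hγ : SL(2, ℤ)) 1 0 : ℤ) = -(N * γ 0 1) := by
    have := congrFun (congrFun (coe_wConj N γ hγ) 1) 0
    simpa using this
  rw [h]
  simp

/-! ### `f ↦ f ∘ wH` preserves `WH (Γ₀(N))` -/

theorem mdiff_comp_wH {f : ℍ → ℂ} (hf : MDiff f) : MDiff (f ∘ wH N) := by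
  have h1 : MDiff (f ∣[(0 : ℤ)] (ModularGroup.S : SL(2, ℤ))) := by
    rw [SL_slash]
    exact MDifferentiable.slash hf 0 _
  have e : f ∘ wH N = (f ∣[(0 : ℤ)] (ModularGroup.S : SL(2, ℤ))) ∘ JN.scaleH N := by
    funext z
    simp only [comp_apply, wH, SL_slash_apply, neg_zero, zpow_zero, mul_one]
  rw [e]
  exact mdiff_comp_scaleH N h1

/-- `Δ((A z + B)/D)^{-m} Δ(z)^{A m}` is bounded at `i∞`. -/
theorem isBounded_discriminant_affH (A D : ℕ) (hA : 0 < A) (hD : 0 < D) (B : ℤ) (m : ℕ) :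
    IsBoundedAtImInfty
      (fun z : ℍ => ((Δ (JN.affH A D hA hD B z))⁻¹ * Δ z ^ A) ^ m) := by
  have hA' : (0 : ℝ) < A := Nat.cast_pos.mpr hA
  have hD' : (0 : ℝ) < D := Nat.cast_pos.mpr hD
  set w := JN.affH A D hA hD B with hw
  have htw := JN.tendsto_affH A D hA hD B
  have h2 : (fun z : ℍ => (Δ (w z))⁻¹) =O[atImInfty]
      fun z : ℍ => (Real.exp (-2 * π * (w z).im))⁻¹ := by
    have := (exp_isBigO_discriminant.comp_tendsto htw)
    refine this.inv_rev (Eventually.of_forall fun z h => ?_)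
    exact absurd h (Real.exp_pos _).ne'
  have h3 : (fun z : ℍ => Δ z ^ A) =O[atImInfty]
      fun z : ℍ => (Real.exp (-2 * π * z.im / 1)) ^ A :=
    (CuspFormClass.exp_decay_atImInfty (h := 1) CuspForm.discriminant one_pos
      one_mem_strictPeriods_SL).pow A
  have h4 := h2.mul h3
  have h5 : (fun z : ℍ => (Δ (w z))⁻¹ * Δ z ^ A) =O[atImInfty] fun _ : ℍ => (1 : ℝ) := by
    refine h4.trans (IsBigO.of_bound 1 (Eventually.of_forall fun z => ?_))
    simp only [norm_one, mul_one, div_one]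
    rw [← Real.exp_neg, ← Real.exp_nat_mul, ← Real.exp_add, Real.norm_eq_abs, Real.abs_exp,
      Real.exp_le_one_iff, JN.im_affH]
    have hy : 0 < z.im := z.im_pos
    have hD1 : (1 : ℝ) ≤ D := by exact_mod_cast hD
    have hAD : (A : ℝ) / D ≤ A := div_le_self hA'.le hD1
    have : (A : ℝ) / D * z.im ≤ A * z.im := mul_le_mul_of_nonneg_right hAD hy.le
    have hpi : 0 < π := Real.pi_pos
    nlinarith [mul_pos hpi hy]
  have h6 := h5.pow m
  rw [IsBoundedAtImInfty, BoundedAtFilter]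
  refine h6.trans (IsBigO.of_bound 1 (Eventually.of_forall fun z => ?_))
  simp

theorem isWH_comp_wH {f : ℍ → ℂ} (hf : IsWH (Gamma0 N) f) : IsWH (Gamma0 N) (f ∘ wH N) := by
  refine ⟨mdiff_comp_wH N hf.1, fun γ hγ z => ?_, fun δ => ?_⟩
  · simp only [comp_apply]
    rw [wH_smul N γ hγ, hf.2.1 _ (wConj_mem N γ hγ)]
  · obtain ⟨δ', A, D, hA, hD, B, hdec⟩ := JN.exists_decomp N δ
    obtain ⟨m, hm⟩ := hf.2.2 (ModularGroup.S * δ')
    refine ⟨A * m, ?_⟩
    have htw := JN.tendsto_affH A D hA hD B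
    have h1 : IsBoundedAtImInfty (fun z : ℍ =>
        f ((ModularGroup.S * δ') • JN.affH A D hA hD B z) * Δ (JN.affH A D hA hD B z) ^ m) := by
      rw [IsBoundedAtImInfty, BoundedAtFilter] at hm ⊢
      exact hm.comp_tendsto htw
    have h2 := isBounded_discriminant_affH A D hA hD B m
    have e : (fun z : ℍ => (f ∘ wH N) (δ • z) * Δ z ^ (A * m)) =
        (fun z : ℍ => f ((ModularGroup.S * δ') • JN.affH A D hA hD B z) *
          Δ (JN.affH A D hA hD B z) ^ m) *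
        fun z : ℍ => ((Δ (JN.affH A D hA hD B z))⁻¹ * Δ z ^ A) ^ m := by
      funext z
      have hΔ : Δ (JN.affH A D hA hD B z) ≠ 0 := discriminant_ne_zero _
      simp only [comp_apply, Pi.mul_apply, wH, hdec z, mul_smul, mul_pow, pow_mul, inv_pow]
      field_simp
    rw [e]
    exact h1.mul h2

/-- The Atkin–Lehner involution on `WH (Γ₀(N))`, as a function. -/
noncomputable def wWHFun (f : WH (Gamma0 N)) : WH (Gamma0 N) :=
  ⟨(f : ℍ → ℂ) ∘ wH N, isWH_comp_wH N f.2⟩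

theorem wWHFun_apply (f : WH (Gamma0 N)) (z : ℍ) : (wWHFun N f : ℍ → ℂ) z = (f : ℍ → ℂ) (wH N z) :=
  rfl

theorem wWHFun_wWHFun (f : WH (Gamma0 N)) : wWHFun N (wWHFun N f) = f := by
  apply Subtype.ext
  funext z
  rw [wWHFun_apply, wWHFun_apply, wH_wH]

/-- **The Atkin–Lehner involution of `WH (Γ₀(N))`** as a `ℂ`-algebra automorphism. -/
noncomputable def wWH : WH (Gamma0 N) ≃ₐ[ℂ] WH (Gamma0 N) where
  toFun := wWHFun N
  invFun := wWHFun N
  left_inv := wWHFun_wWHFun N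
  right_inv := wWHFun_wWHFun N
  map_mul' _ _ := rfl
  map_add' _ _ := rfl
  commutes' _ := rfl

theorem wWH_apply (f : WH (Gamma0 N)) (z : ℍ) : (wWH N f : ℍ → ℂ) z = (f : ℍ → ℂ) (wH N z) := rfl

theorem wWH_wWH (f : WH (Gamma0 N)) : wWH N (wWH N f) = f := wWHFun_wWHFun N f

end Fermat.Agent.S16.Bridge
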