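/-
S16 / QEP bridge (T1), part 2 (helper16): **descent of the field of definition of a `q`-series.**

For a subfield `F₀ ⊆ ℚ((q))` and a field `L ⊇ ℚ`: a Laurent series `x ∈ ℚ((q))` whose coefficientwise
image in `L((q))` lies in the compositum `L · F₀ = laurentBaseChange L F₀` already lies in `F₀`.
(Apply a `ℚ`-linear functional `φ : L → ℚ` coefficientwise; it is `ℚ((q))`-linear.)

Corollary: `x ∈ ℚ((q))`, `coeffEmb ℂ x ∈ FC N = ℂ(j(q^d) : d ∣ N)`  ⇒  `x ∈ ℚ(j(q^d) : d ∣ N)`
(`= modularFunctionFieldFullC ℚ N`, the carrier of `N4.Setting.FF ℚ N`).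
-/
import Mathlib
import Fermat.Prelude.Def_ModularCurve_LaurentCoeff
import Fermat.Prelude.Def_ModularCurve_X0ModL
import Fermat.Agent.S24.FieldIsoFinal

set_option autoImplicit false

open ModularCurve

noncomputable section

namespace Fermat.Agent.S16.Bridge.Descent

variable {L : Type*} [Field L] [Algebra ℚ L]

/-- Coefficientwise push-forward along a `ℚ`-linear functional. -/
def push (φ : L →ₗ[ℚ] ℚ) (z : LaurentSeries L) : LaurentSeries ℚ := z.map φ

@[simp] theorem push_coeff (φ : L →ₗ[ℚ] ℚ) (z : LaurentSeries L) (n : ℤ) :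
    (push φ z).coeff n = φ (z.coeff n) := rfl

theorem push_zero (φ : L →ₗ[ℚ] ℚ) : push φ 0 = 0 := by
  ext n; simp

theorem push_add (φ : L →ₗ[ℚ] ℚ) (z w : LaurentSeries L) : push φ (z + w) = push φ z + push φ w := by
  ext n; simp

theorem support_push_subset (φ : L →ₗ[ℚ] ℚ) (z : LaurentSeries L) :
    (push φ z).support ⊆ z.support := by
  intro n hn
  rw [HahnSeries.mem_support] at hn ⊢
  intro h
  apply hn
  rw [push_coeff, h, map_zero]

theorem support_coeffEmb_subset (y : LaurentSeries ℚ) : (coeffEmb L y).support ⊆ y.support := by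
  intro n hn
  rw [HahnSeries.mem_support] at hn ⊢
  intro h
  apply hn
  rw [coeffEmb_coeff, h, map_zero]

/-- `push φ` is `ℚ((q))`-linear. -/
theorem push_coeffEmb_mul (φ : L →ₗ[ℚ] ℚ) (y : LaurentSeries ℚ) (z : LaurentSeries L) :
    push φ (coeffEmb L y * z) = y * push φ z := by
  ext n
  rw [push_coeff, HahnSeries.coeff_mul_left' y.isPWO_support (support_coeffEmb_subset y),
    HahnSeries.coeff_mul_right' z.isPWO_support (support_push_subset φ z), map_sum]
  refine Finset.sum_congr rfl fun ij _ => ?_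
  rw [coeffEmb_coeff, push_coeff, ← Algebra.smul_def, map_smul, smul_eq_mul]

theorem push_algebraMap_mul_coeffEmb (φ : L →ₗ[ℚ] ℚ) (c : L) (y : LaurentSeries ℚ) :
    push φ (algebraMap L (LaurentSeries L) c * coeffEmb L y) =
      algebraMap ℚ (LaurentSeries ℚ) (φ c) * y := by
  rw [mul_comm, push_coeffEmb_mul, mul_comm]
  congr 1
  ext n
  rw [push_coeff, algebraMap_laurentSeries_eq_single, algebraMap_laurentSeries_eq_single,
    HahnSeries.coeff_single, HahnSeries.coeff_single]
  split_ifs <;> simp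

variable (F₀ : IntermediateField ℚ (LaurentSeries ℚ))

/-- every functional maps the `L`-span of `F₀` into `F₀` -/
theorem push_mem_of_mem_span {s : LaurentSeries L}
    (hs : s ∈ @Submodule.span L (LaurentSeries L) _ _ Algebra.toModule
      (⇑(coeffEmb L) '' (F₀ : Set (LaurentSeries ℚ)))) :
    ∀ φ : L →ₗ[ℚ] ℚ, push φ s ∈ F₀ := by
  induction hs using Submodule.span_induction with
  | mem x hx =>
    intro φ
    obtain ⟨y, hy, rfl⟩ := hx
    have := push_algebraMap_mul_coeffEmb φ 1 y
    rw [map_one, one_mul] at this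
    rw [this]
    exact F₀.mul_mem (F₀.algebraMap_mem _) hy
  | zero => intro φ; rw [push_zero]; exact F₀.zero_mem
  | add x y _ _ hx hy => intro φ; rw [push_add]; exact F₀.add_mem (hx φ) (hy φ)
  | smul c x _ hx =>
    intro φ
    have : push φ (algebraMap L (LaurentSeries L) c * x) =
        push (φ.comp (LinearMap.mulLeft ℚ c)) x := by
      rw [algebraMap_laurentSeries_eq_single]
      ext n
      rw [push_coeff, push_coeff, HahnSeries.coeff_single_zero_mul]
      rfl
    rw [Algebra.smul_def, this]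
    exact hx _

/-- the `L`-algebra generated by the image of `F₀` is its `L`-span -/
theorem adjoin_eq_span :
    Subalgebra.toSubmodule (Algebra.adjoin L (⇑(coeffEmb L) '' (F₀ : Set (LaurentSeries ℚ)))) =
      @Submodule.span L (LaurentSeries L) _ _ Algebra.toModule
        (⇑(coeffEmb L) '' (F₀ : Set (LaurentSeries ℚ))) := by
  have h : (⇑(coeffEmb L) '' (F₀ : Set (LaurentSeries ℚ))) =
      ((F₀.toSubfield.toSubring.toSubmonoid.map (coeffEmb L : LaurentSeries ℚ →* LaurentSeries L) :
        Submonoid (LaurentSeries L)) : Set (LaurentSeries L)) := by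
    ext x; simp
  rw [Algebra.adjoin_eq_span]
  congr 1
  rw [h, Submonoid.closure_eq]

/-- **Descent.** -/
theorem mem_of_coeffEmb_mem {x : LaurentSeries ℚ} (hx : coeffEmb L x ∈ laurentBaseChange L F₀) :
    x ∈ F₀ := by
  rw [laurentBaseChange, IntermediateField.mem_adjoin_iff_div] at hx
  obtain ⟨a, ha, b, hb, hab⟩ := hx
  have ha' : a ∈ @Submodule.span L (LaurentSeries L) _ _ Algebra.toModule
      (⇑(coeffEmb L) '' (F₀ : Set (LaurentSeries ℚ))) := by
    rw [← adjoin_eq_span]; exact ha
  have hb' : b ∈ @Submodule.span L (LaurentSeries L) _ _ Algebra.toModule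
      (⇑(coeffEmb L) '' (F₀ : Set (LaurentSeries ℚ))) := by
    rw [← adjoin_eq_span]; exact hb
  by_cases hb0 : b = 0
  · -- then `coeffEmb x = 0`, so `x = 0`
    rw [hb0, div_zero] at hab
    have : x = 0 := (map_eq_zero_iff _ (coeffEmb L).injective).mp hab
    rw [this]; exact F₀.zero_mem
  · -- choose a functional not killing some coefficient of `b`
    obtain ⟨n, hn⟩ : ∃ n, b.coeff n ≠ 0 := by
      by_contra h
      exact hb0 (HahnSeries.ext (funext fun n => not_not.mp fun hn => h ⟨n, hn⟩))
    obtain ⟨φ, hφ⟩ : ∃ φ : L →ₗ[ℚ] ℚ, φ (b.coeff n) ≠ 0 := by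
      by_contra h
      exact hn ((Module.forall_dual_apply_eq_zero_iff ℚ _).mp
        fun φ => not_not.mp fun hφ => h ⟨φ, hφ⟩)
    have hpb : push φ b ≠ 0 := by
      intro h
      apply hφ
      rw [← push_coeff, h, HahnSeries.coeff_zero]
    have hmul : coeffEmb L x * b = a := by
      rw [hab, div_mul_cancel₀ _ hb0]
    have := congrArg (push φ) hmul
    rw [push_coeffEmb_mul] at this
    have hx : x = push φ a / push φ b := by
      rw [eq_div_iff hpb, this]
    rw [hx]
    exact F₀.div_mem (push_mem_of_mem_span F₀ ha' φ) (push_mem_of_mem_span F₀ hb' φ)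

/-- **Descent for the modular function field**: a rational `q`-series lying in
`FC N = ℂ(j(q^d) : d ∣ N)` lies in `ℚ(j(q^d) : d ∣ N)`. -/
theorem mem_fullC_rat_of_mem_FC (N : ℕ) {x : LaurentSeries ℚ}
    (hx : coeffEmb ℂ x ∈ Fermat.Agent.S24.FieldIso.FC N) : x ∈ modularFunctionFieldFullC ℚ N := by
  rw [modularFunctionFieldFullC_rat]
  exact mem_of_coeffEmb_mem (modularFunctionFieldFull N) hx

end Fermat.Agent.S16.Bridge.Descent
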