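/-
S16 / QEP bridge (T1), part 1 (helper16): **weight-zero quotients of modular forms of level `Γ₀(N)`
as elements of the function field `WHField (Γ₀(N))`, and their `q`-expansions.**

* `IsFormLike Γ k F` : `F : ℍ → ℂ` is holomorphic, transforms with weight `k` under `Γ ≤ SL(2,ℤ)` and
  all its `SL(2,ℤ)`-slashes are bounded at `i∞` (what a `ModularForm Γ k` gives, stated for bare
  functions so that products and powers need no casts of weights);
* `IsFormLike.isWH_div` : weight `12 m` ⇒ `F / Δ ^ m ∈ WH Γ`;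
* `whDiv`, `qexp_whDiv` : the element of `WH (Γ₀(N))` and its `q`-expansion
  `qexp (F / Δ^m) * qD ^ m = ofPS (qExpansion 1 F)`;
* `formRatio`, `qexpField_formRatio` : for `A, B` of the same weight `k ≥ 0`, `B ≠ 0`, the element
  `[A / B] ∈ WHField (Γ₀(N))` with `q`-expansion `ofPS (qExpansion 1 A) / ofPS (qExpansion 1 B)`.
-/
import Mathlib
import Fermat.Agent.S24.FieldIsoFinal

set_option autoImplicit false
set_option linter.unusedSectionVars false

namespace Fermat.Agent.S16.Bridge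

open UpperHalfPlane ModularForm MatrixGroups CongruenceSubgroup Filter Function
open Fermat.Agent.M2 Fermat.Agent.S24.QExp
open scoped Manifold Topology

local notation "Δ" => ModularForm.discriminant
local notation "ofPS" => HahnSeries.ofPowerSeries ℤ ℂ

/-- `F : ℍ → ℂ` behaves like a holomorphic modular form of weight `k` and level `Γ ≤ SL(2,ℤ)`. -/
structure IsFormLike (Γ : Subgroup SL(2, ℤ)) (k : ℤ) (F : ℍ → ℂ) : Prop where
  mdiff : MDiff F
  slash : ∀ γ ∈ Γ, ∀ z : ℍ, F (γ • z) = denom γ z ^ k * F z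
  bdd : ∀ δ : SL(2, ℤ), IsBoundedAtImInfty (fun z : ℍ => F (δ • z) * denom δ z ^ (-k))

namespace IsFormLike

variable {Γ : Subgroup SL(2, ℤ)} {k k₁ k₂ : ℤ} {F G : ℍ → ℂ}

theorem mul (hF : IsFormLike Γ k₁ F) (hG : IsFormLike Γ k₂ G) : IsFormLike Γ (k₁ + k₂) (F * G) := by
  refine ⟨hF.mdiff.mul hG.mdiff, fun γ hγ z => ?_, fun δ => ?_⟩
  · have hd : denom γ z ≠ 0 := denom_ne_zero γ z
    simp only [Pi.mul_apply]
    rw [hF.slash γ hγ z, hG.slash γ hγ z, zpow_add₀ hd]
    ring
  · have := (hF.bdd δ).mul (hG.bdd δ)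
    have e : (fun z : ℍ => (F * G) (δ • z) * denom δ z ^ (-(k₁ + k₂))) =
        (fun z : ℍ => F (δ • z) * denom δ z ^ (-k₁)) * fun z : ℍ => G (δ • z) * denom δ z ^ (-k₂) := by
      funext z
      have hd : denom δ z ≠ 0 := denom_ne_zero δ z
      simp only [Pi.mul_apply, neg_add, zpow_add₀ hd]
      ring
    rw [e]
    exact this

theorem one : IsFormLike Γ 0 (1 : ℍ → ℂ) := by
  refine ⟨mdifferentiable_const, fun γ _ z => by simp, fun δ => ?_⟩
  simp only [Pi.one_apply, neg_zero, zpow_zero, mul_one]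
  exact Filter.const_boundedAtFilter atImInfty (1 : ℂ)

theorem pow (hF : IsFormLike Γ k F) (n : ℕ) : IsFormLike Γ (n * k) (F ^ n) := by
  induction n with
  | zero => simpa using (one : IsFormLike Γ 0 (1 : ℍ → ℂ))
  | succ n ih =>
    have := ih.mul hF
    rw [pow_succ]
    convert this using 1
    push_cast
    ring

theorem congr_weight (hF : IsFormLike Γ k₁ F) (h : k₁ = k₂) : IsFormLike Γ k₂ F := h ▸ hF

theorem mono {Γ' : Subgroup SL(2, ℤ)} (h : Γ' ≤ Γ) (hF : IsFormLike Γ k F) : IsFormLike Γ' k F :=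
  ⟨hF.mdiff, fun γ hγ z => hF.slash γ (h hγ) z, hF.bdd⟩

/-- A modular form of level `Γ` (a subgroup of `SL(2,ℤ)` of finite index) is form-like. -/
theorem ofModularForm [(Γ : Subgroup (GL (Fin 2) ℝ)).IsArithmetic] (f : ModularForm Γ k) :
    IsFormLike Γ k (f : ℍ → ℂ) := by
  refine ⟨f.holo', fun γ hγ z => SlashInvariantForm.slash_action_eqn_SL'' f hγ z, fun δ => ?_⟩
  have := ModularFormClass.bdd_at_infty_slash f δ
  rwa [SL_slash_def] at this

/-- The discriminant is form-like of weight `12` for every level. -/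
theorem discriminant : IsFormLike Γ 12 (Δ : ℍ → ℂ) := by
  refine ⟨mdiff_discriminant, fun γ _ z => discriminant_smul γ z, fun δ => ?_⟩
  have e : (fun z : ℍ => Δ (δ • z) * denom δ z ^ (-(12 : ℤ))) = (Δ : ℍ → ℂ) := by
    funext z
    have hd : denom δ z ≠ 0 := denom_ne_zero δ z
    rw [discriminant_smul, zpow_neg]
    field_simp
  rw [e]
  exact discriminant_isZeroAtImInfty.boundedAtFilter

/-- `1`-periodicity when `T ∈ Γ`. -/
theorem vadd_one (hT : ModularGroup.T ∈ Γ) (hF : IsFormLike Γ k F) (z : ℍ) :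
    F ((1 : ℝ) +ᵥ z) = F z := by
  have h := hF.slash _ hT z
  rw [UpperHalfPlane.modular_T_smul] at h
  rw [h]
  have : denom (ModularGroup.T : SL(2, ℤ)) z = 1 := by
    rw [ModularGroup.denom_apply]
    simp [ModularGroup.T]
  rw [this, one_zpow, one_mul]

theorem isHol (hT : ModularGroup.T ∈ Γ) (hF : IsFormLike Γ k F) : IsHol F := by
  refine ⟨hF.mdiff, CuspVal.periodic_of_vadd (hF.vadd_one hT), ?_⟩
  have := hF.bdd 1
  simpa using this

/-- **Weight `12 m` form-like functions divided by `Δ ^ m` are weakly holomorphic modular functions.** -/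
theorem isWH_div {m : ℕ} (hF : IsFormLike Γ (12 * m) F) :
    IsWH Γ (fun z : ℍ => F z / Δ z ^ m) := by
  refine ⟨?_, fun γ hγ z => ?_, fun δ => ⟨m, ?_⟩⟩
  · have hΔ : MDiff (fun z : ℍ => Δ z ^ m) := by
      have := (IsHol.discriminant.pow m).mdiff
      exact this
    rw [UpperHalfPlane.mdifferentiable_iff] at hΔ ⊢
    have hF' := hF.mdiff
    rw [UpperHalfPlane.mdifferentiable_iff] at hF'
    have e : ((fun z : ℍ => F z / Δ z ^ m) ∘ ofComplex) =
        fun w => (F ∘ ofComplex) w / ((fun z : ℍ => Δ z ^ m) ∘ ofComplex) w := by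
      funext w; rfl
    rw [e]
    exact hF'.div hΔ (fun w _ => pow_ne_zero m (discriminant_ne_zero _))
  · have hd : denom γ z ≠ 0 := denom_ne_zero γ z
    have hΔ := discriminant_ne_zero z
    simp only
    rw [hF.slash γ hγ z, discriminant_smul, mul_pow, ← zpow_natCast (denom γ z ^ (12 : ℤ)) m,
      ← zpow_mul]
    field_simp
  · have e : (fun z : ℍ => F (δ • z) / Δ (δ • z) ^ m * Δ z ^ m) =
        fun z : ℍ => F (δ • z) * denom δ z ^ (-(12 * (m : ℤ))) := by
      funext z
      have hd : denom δ z ≠ 0 := denom_ne_zero δ z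
      have hΔ := discriminant_ne_zero z
      rw [discriminant_smul, mul_pow, ← zpow_natCast (denom δ z ^ (12 : ℤ)) m, ← zpow_mul, zpow_neg]
      field_simp
    rw [e]
    exact hF.bdd δ

end IsFormLike

/-! ### The elements `F / Δ ^ m` of `WH (Γ₀(N))` -/

section Level

open Fermat.Agent.S24.FieldIso

variable (N : ℕ)

/-- `F / Δ ^ m ∈ WH (Γ₀(N))` for `F` form-like of weight `12 m`. -/
noncomputable def whDiv {m : ℕ} {F : ℍ → ℂ} (hF : IsFormLike (Gamma0 N) (12 * m) F) :
    WH (Gamma0 N) :=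
  ⟨fun z => F z / Δ z ^ m, hF.isWH_div⟩

theorem whDiv_apply {m : ℕ} {F : ℍ → ℂ} (hF : IsFormLike (Gamma0 N) (12 * m) F) (z : ℍ) :
    (whDiv N hF : ℍ → ℂ) z = F z / Δ z ^ m := rfl

/-- **`q`-expansion of `F / Δ ^ m`.** -/
theorem qexp_whDiv {m : ℕ} {F : ℍ → ℂ} (hF : IsFormLike (Gamma0 N) (12 * m) F) :
    qexp N (whDiv N hF) * qD ^ m = ofPS (qExpansion 1 F) := by
  have hT := T_mem_Gamma0 N
  have hmer : IsMer (whDiv N hF : ℍ → ℂ) := isMer_coe hT _
  have hu : IsHol ((Δ : ℍ → ℂ) ^ m) := IsHol.discriminant.pow m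
  have e : (whDiv N hF : ℍ → ℂ) * (Δ : ℍ → ℂ) ^ m = F := by
    funext z
    simp only [Pi.mul_apply, Pi.pow_apply, whDiv_apply]
    rw [div_mul_cancel₀ _ (pow_ne_zero m (discriminant_ne_zero z))]
  have h := qexpFun_mul_ofPS hmer hu (by rw [e]; exact hF.isHol hT)
  rw [e, IsHol.discriminant.qExpansion_pow, map_pow] at h
  exact h

theorem qexp_whDiv' {m : ℕ} {F : ℍ → ℂ} (hF : IsFormLike (Gamma0 N) (12 * m) F) :
    qexp N (whDiv N hF) = ofPS (qExpansion 1 F) / qD ^ m := by
  rw [eq_div_iff (pow_ne_zero m qD_ne_zero)]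
  exact qexp_whDiv N hF

theorem whDiv_ne_zero {m : ℕ} {F : ℍ → ℂ} (hF : IsFormLike (Gamma0 N) (12 * m) F) (h0 : F ≠ 0) :
    whDiv N hF ≠ 0 := by
  intro h
  apply h0
  funext z
  have := congrArg (fun f : WH (Gamma0 N) => (f : ℍ → ℂ) z) h
  simp only [whDiv_apply] at this
  have hz : Δ z ^ m ≠ 0 := pow_ne_zero m (discriminant_ne_zero z)
  rw [div_eq_iff hz] at this
  simpa using this

/-! ### Weight-zero quotients in the function field -/

variable {N}

/-- numerator `A * B ^ 11` of weight `12 k` -/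
theorem isFormLike_num {k : ℕ} {A B : ℍ → ℂ} (hA : IsFormLike (Gamma0 N) k A)
    (hB : IsFormLike (Gamma0 N) k B) : IsFormLike (Gamma0 N) (12 * k) (A * B ^ 11) :=
  (hA.mul (hB.pow 11)).congr_weight (by push_cast; ring)

/-- denominator `B ^ 12` of weight `12 k` -/
theorem isFormLike_den {k : ℕ} {B : ℍ → ℂ} (hB : IsFormLike (Gamma0 N) k B) :
    IsFormLike (Gamma0 N) (12 * k) (B ^ 12) :=
  (hB.pow 12).congr_weight (by push_cast; ring)

/-- **The weight-zero quotient `A / B`** of two form-like functions of the same weight, as an element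
of the function field `WHField (Γ₀(N))` (junk `= 0`-denominator convention if `B = 0`). -/
noncomputable def formRatio {k : ℕ} {A B : ℍ → ℂ} (hA : IsFormLike (Gamma0 N) k A)
    (hB : IsFormLike (Gamma0 N) k B) : WHField (Gamma0 N) :=
  algebraMap (WH (Gamma0 N)) (WHField (Gamma0 N)) (whDiv N (isFormLike_num hA hB)) /
    algebraMap (WH (Gamma0 N)) (WHField (Gamma0 N)) (whDiv N (isFormLike_den hB))

/-- **`q`-expansion of the quotient.** -/
theorem qexpField_formRatio {k : ℕ} {A B : ℍ → ℂ} (hA : IsFormLike (Gamma0 N) k A)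
    (hB : IsFormLike (Gamma0 N) k B) (hB0 : B ≠ 0) :
    qexpField N (formRatio hA hB) = ofPS (qExpansion 1 A) / ofPS (qExpansion 1 B) := by
  have hT := T_mem_Gamma0 N
  have hAh : IsHol A := hA.isHol hT
  have hBh : IsHol B := hB.isHol hT
  have hb : ofPS (qExpansion 1 B) ≠ 0 := hBh.ofPS_ne_zero hB0
  have hq : qD ^ k ≠ 0 := pow_ne_zero k qD_ne_zero
  rw [formRatio, map_div₀, qexpField_algebraMap, qexpField_algebraMap, qexp_whDiv', qexp_whDiv',
    hAh.qExpansion_mul (hBh.pow 11), hBh.qExpansion_pow, hBh.qExpansion_pow, map_mul, map_pow,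
    map_pow]
  field_simp

end Level

end Fermat.Agent.S16.Bridge
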