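/-
S16 / QEP bridge (T1), part 3b (helper16): **the Atkin–Lehner (Fricke) involution on the function
fields** `WHField (Γ₀(N))`, `FC N = ℂ(j(q^d) : d ∣ N)` and `FF ℚ N = ℚ(j(q^d) : d ∣ N)`.

* `wField N : WHField (Γ₀(N)) ≃ₐ[ℂ] WHField (Γ₀(N))`  (fraction-field extension of `wWH N`);
* `wC N : FC N ≃ₐ[ℂ] FC N`  (transport along the `q`-expansion isomorphism `fieldEquiv N`), with
  `wC N ⟨j(q^d)⟩ = ⟨j(q^{N/d})⟩` for `d ∣ N`;
* `toFC N : FF ℚ N →+* FC N` (coefficientwise `ℚ → ℂ`), `wFF N : FF ℚ N ≃ₐ[ℚ] FF ℚ N` with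
  `toFC (wFF x) = wC (toFC x)`, `wFF (jdF d) = jdF (N/d)`, `wFF ∘ wFF = id`;
* `wField_formRatio` : compatibility with weight-zero quotients of forms:
  `A'(z) B(W z) = B'(z) A(W z)  ⇒  wField [A/B] = [A'/B']`.
-/
import Mathlib
import Fermat.Agent.S16.Bridge.FormRatio
import Fermat.Agent.S16.Bridge.Descent
import Fermat.Agent.S16.Bridge.AtkinLehnerWH
import Fermat.Agent.N4.Setting

set_option autoImplicit false
set_option linter.unusedSectionVars false
set_option linter.style.haveILetI false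
set_option linter.unusedSimpArgs false

namespace Fermat.Agent.S16.Bridge

open UpperHalfPlane ModularForm MatrixGroups CongruenceSubgroup Filter Function
open Fermat.Agent.M2 Fermat.Agent.S24.QExp Fermat.Agent.S24.FieldIso ModularCurve
open Fermat.Agent.N4.Setting
open scoped Manifold Topology

local notation "Δ" => ModularForm.discriminant
local notation "ofPS" => HahnSeries.ofPowerSeries ℤ ℂ

variable (N : ℕ) [NeZero N]

/-! ### The involution on `WHField (Γ₀(N))` -/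

/-- The Atkin–Lehner involution of the field of modular functions of level `Γ₀(N)`. -/
noncomputable def wField : WHField (Gamma0 N) ≃ₐ[ℂ] WHField (Gamma0 N) :=
  IsFractionRing.algEquivOfAlgEquiv (wWH N)

theorem wField_algebraMap (f : WH (Gamma0 N)) :
    wField N (algebraMap (WH (Gamma0 N)) (WHField (Gamma0 N)) f) =
      algebraMap (WH (Gamma0 N)) (WHField (Gamma0 N)) (wWH N f) :=
  IsFractionRing.algEquivOfAlgEquiv_algebraMap (wWH N) f

theorem wField_wField (x : WHField (Gamma0 N)) : wField N (wField N x) = x := by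
  obtain ⟨a, b, -, rfl⟩ := IsFractionRing.div_surjective (A := WH (Gamma0 N)) x
  rw [map_div₀, map_div₀, wField_algebraMap, wField_algebraMap, wField_algebraMap,
    wField_algebraMap, wWH_wWH, wWH_wWH]

/-! ### Transport to `FC N` -/

/-- The Atkin–Lehner involution on `FC N = ℂ(j(q^d) : d ∣ N)`. -/
noncomputable def wC : ↥(FC N) ≃ₐ[ℂ] ↥(FC N) :=
  (fieldEquiv N).symm.trans ((wField N).trans (fieldEquiv N))

theorem wC_fieldEquiv (x : WHField (Gamma0 N)) :
    wC N (fieldEquiv N x) = fieldEquiv N (wField N x) := by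
  simp [wC]

theorem wC_wC (y : ↥(FC N)) : wC N (wC N y) = y := by
  obtain ⟨x, rfl⟩ := (fieldEquiv N).surjective y
  rw [wC_fieldEquiv, wC_fieldEquiv, wField_wField]

/-! ### The generators `j(q^d)` -/

theorem neZero_div {d : ℕ} [NeZero d] (hd : d ∣ N) : NeZero (N / d) :=
  ⟨(Nat.div_pos (Nat.le_of_dvd (NeZero.pos N) hd) (NeZero.pos d)).ne'⟩

theorem scaleH_wH {d : ℕ} [NeZero d] (hd : d ∣ N) (z : ℍ) :
    haveI := neZero_div N hd
    JN.scaleH d (wH N z) = ModularGroup.S • JN.scaleH (N / d) z := by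
  haveI := neZero_div N hd
  apply UpperHalfPlane.ext
  rw [JN.coe_scaleH, coe_wH, UpperHalfPlane.modular_S_smul]
  have hN : (N : ℂ) ≠ 0 := Nat.cast_ne_zero.mpr (NeZero.ne N)
  have hd0 : (d : ℂ) ≠ 0 := Nat.cast_ne_zero.mpr (NeZero.ne d)
  have hz : (z : ℂ) ≠ 0 := z.ne_zero
  have hNd : ((N / d : ℕ) : ℂ) = (N : ℂ) / d := Nat.cast_div hd hd0
  simp only [UpperHalfPlane.coe_mk, JN.coe_scaleH, hNd]
  field_simp

theorem jN_wH {d : ℕ} [NeZero d] (hd : d ∣ N) (z : ℍ) :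
    haveI := neZero_div N hd
    JN.jN d (wH N z) = JN.jN (N / d) z := by
  haveI := neZero_div N hd
  rw [JN.jN, scaleH_wH N hd, jInv_smul, JN.jN]

/-- `j(d z) ∈ WH (Γ₀(N))` as an element. -/
noncomputable def jdWH {d : ℕ} [NeZero d] (hd : d ∣ N) : WH (Gamma0 N) :=
  ⟨JN.jN d, jN_mem_WH_of_dvd N d hd⟩

theorem wWH_jdWH {d : ℕ} [NeZero d] (hd : d ∣ N) :
    haveI := neZero_div N hd
    wWH N (jdWH N hd) = jdWH N (Nat.div_dvd_of_dvd hd) := by
  haveI := neZero_div N hd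
  apply Subtype.ext
  funext z
  rw [wWH_apply]
  exact jN_wH N hd z

/-- `j(q^d) ∈ FC N`. -/
noncomputable def jdC {d : ℕ} [NeZero d] (hd : d ∣ N) : ↥(FC N) :=
  ⟨qExpand ℂ d (jqModC ℂ), qExpand_jqModC_mem_FC N hd⟩

theorem fieldEquiv_jdWH {d : ℕ} [NeZero d] (hd : d ∣ N) :
    fieldEquiv N (algebraMap (WH (Gamma0 N)) (WHField (Gamma0 N)) (jdWH N hd)) = jdC N hd := by
  apply Subtype.ext
  rw [coe_fieldEquiv, qexpField_algebraMap]
  exact qexp_jN N d hd _

/-- **`w (j(q^d)) = j(q^{N/d})`.** -/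
theorem wC_jdC {d : ℕ} [NeZero d] (hd : d ∣ N) :
    haveI := neZero_div N hd
    wC N (jdC N hd) = jdC N (Nat.div_dvd_of_dvd hd) := by
  haveI := neZero_div N hd
  rw [← fieldEquiv_jdWH, wC_fieldEquiv, wField_algebraMap, wWH_jdWH, fieldEquiv_jdWH]

/-! ### Descent to `FF ℚ N` -/

/-- The coefficientwise embedding `FF ℚ N → FC N`. -/
noncomputable def toFC : FF ℚ N →+* ↥(FC N) :=
  ((coeffEmb ℂ).comp (algebraMap (FF ℚ N) (LaurentSeries ℚ))).codRestrict (FC N).toSubring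
    fun x => coeffEmb_mem_laurentBaseChange ℂ (F₀ := modularFunctionFieldFull N) x.2

theorem coe_toFC (x : FF ℚ N) :
    ((toFC N x : ↥(FC N)) : LaurentSeries ℂ) = coeffEmb ℂ (x : LaurentSeries ℚ) := rfl

theorem toFC_injective : Function.Injective (toFC N) := (toFC N).injective

theorem toFC_ratCast (c : ℚ) : toFC N (c : FF ℚ N) = ((c : ℚ) : ↥(FC N)) := map_ratCast _ c

theorem toFC_jdF {d : ℕ} [NeZero d] (hd : d ∣ N) : toFC N (jdF ℚ N hd) = jdC N hd := by
  apply Subtype.ext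
  rw [coe_toFC, coe_jdF]
  show coeffEmb ℂ (qExpand ℚ d (jqModC ℚ)) = qExpand ℂ d (jqModC ℂ)
  rw [jqModC_rat]
  exact coeffEmb_qExpand_jq d

/-- `wC` preserves the image of `FF ℚ N`. -/
theorem wC_toFC_mem_range (x : FF ℚ N) : wC N (toFC N x) ∈ (toFC N).range := by
  obtain ⟨x, hx⟩ := x
  induction hx using IntermediateField.adjoin_induction with
  | mem y hy =>
    obtain ⟨d, hd0, hd, rfl⟩ := hy
    haveI := hd0
    haveI := neZero_div N hd
    have e : (⟨qExpand ℚ d (jqModC ℚ), IntermediateField.subset_adjoin _ _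
        (mem_divisorExpansionsC ℚ N hd)⟩ : FF ℚ N) = jdF ℚ N hd := rfl
    rw [e, toFC_jdF, wC_jdC, ← toFC_jdF]
    exact ⟨_, rfl⟩
  | algebraMap c =>
    refine ⟨((c : ℚ) : FF ℚ N), ?_⟩
    rw [toFC_ratCast]
    have h : toFC N ⟨_, IntermediateField.algebraMap_mem _ c⟩ = ((c : ℚ) : ↥(FC N)) := by
      apply Subtype.ext
      rw [coe_toFC]
      simp only [eq_ratCast, map_ratCast]
      rfl
    rw [h, map_ratCast]
  | add y z hy hz ihy ihz =>
    have e : (⟨y + z, add_mem hy hz⟩ : FF ℚ N) = ⟨y, hy⟩ + ⟨z, hz⟩ := rfl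
    rw [e, map_add, map_add]
    exact add_mem ihy ihz
  | inv y hy ihy =>
    have e : (⟨y⁻¹, inv_mem hy⟩ : FF ℚ N) = (⟨y, hy⟩ : FF ℚ N)⁻¹ := rfl
    rw [e, map_inv₀, map_inv₀]
    obtain ⟨u, hu⟩ := ihy
    exact ⟨u⁻¹, by rw [map_inv₀, hu]⟩
  | mul y z hy hz ihy ihz =>
    have e : (⟨y * z, mul_mem hy hz⟩ : FF ℚ N) = ⟨y, hy⟩ * ⟨z, hz⟩ := rfl
    rw [e, map_mul, map_mul]
    exact mul_mem ihy ihz

/-- The Atkin–Lehner involution on `FF ℚ N`, as a function. -/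
noncomputable def wFFFun (x : FF ℚ N) : FF ℚ N := Classical.choose (wC_toFC_mem_range N x)

theorem toFC_wFFFun (x : FF ℚ N) : toFC N (wFFFun N x) = wC N (toFC N x) :=
  Classical.choose_spec (wC_toFC_mem_range N x)

theorem wFFFun_wFFFun (x : FF ℚ N) : wFFFun N (wFFFun N x) = x := by
  apply toFC_injective N
  rw [toFC_wFFFun, toFC_wFFFun, wC_wC]

/-- **The Atkin–Lehner involution of `FF ℚ N = ℚ(j(q^d) : d ∣ N)`.** -/
noncomputable def wFF : FF ℚ N ≃ₐ[ℚ] FF ℚ N where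
  toFun := wFFFun N
  invFun := wFFFun N
  left_inv := wFFFun_wFFFun N
  right_inv := wFFFun_wFFFun N
  map_mul' x y := by
    apply toFC_injective N
    rw [toFC_wFFFun, map_mul, map_mul, map_mul, toFC_wFFFun, toFC_wFFFun]
  map_add' x y := by
    apply toFC_injective N
    rw [toFC_wFFFun, map_add, map_add, map_add, toFC_wFFFun, toFC_wFFFun]
  commutes' c := by
    apply toFC_injective N
    rw [toFC_wFFFun, eq_ratCast, toFC_ratCast, map_ratCast]

theorem toFC_wFF (x : FF ℚ N) : toFC N (wFF N x) = wC N (toFC N x) := toFC_wFFFun N x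

theorem wFF_wFF (x : FF ℚ N) : wFF N (wFF N x) = x := wFFFun_wFFFun N x

/-- **`w (j(q^d)) = j(q^{N/d})`** in `FF ℚ N`. -/
theorem wFF_jdF {d : ℕ} [NeZero d] (hd : d ∣ N) :
    haveI := neZero_div N hd
    wFF N (jdF ℚ N hd) = jdF ℚ N (Nat.div_dvd_of_dvd hd) := by
  haveI := neZero_div N hd
  apply toFC_injective N
  rw [toFC_wFF, toFC_jdF, wC_jdC, toFC_jdF]

/-! ### Compatibility with weight-zero quotients of forms -/

variable {N}

theorem whDiv_den_ne_zero {k : ℕ} {B : ℍ → ℂ} (hB : IsFormLike (Gamma0 N) k B) (hB0 : B ≠ 0) :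
    whDiv N (isFormLike_den hB) ≠ 0 := by
  apply whDiv_ne_zero
  intro h
  apply hB0
  funext z
  have := congrFun h z
  simp only [Pi.pow_apply, Pi.zero_apply] at this
  exact pow_eq_zero_iff (by norm_num) |>.mp this

/-- **Atkin–Lehner on weight-zero quotients.**  If `A'/B' = (A/B) ∘ W_N` pointwise (in the
cross-multiplied form), then `wField [A/B] = [A'/B']`. -/
theorem wField_formRatio {k k' : ℕ} {A B A' B' : ℍ → ℂ}
    (hA : IsFormLike (Gamma0 N) k A) (hB : IsFormLike (Gamma0 N) k B)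
    (hA' : IsFormLike (Gamma0 N) k' A') (hB' : IsFormLike (Gamma0 N) k' B')
    (hB0 : B ≠ 0) (hB'0 : B' ≠ 0)
    (h : ∀ z : ℍ, A' z * B (wH N z) = B' z * A (wH N z)) :
    wField N (formRatio hA hB) = formRatio hA' hB' := by
  have hinj := IsFractionRing.injective (WH (Gamma0 N)) (WHField (Gamma0 N))
  have h1 : algebraMap (WH (Gamma0 N)) (WHField (Gamma0 N)) (wWH N (whDiv N (isFormLike_den hB))) ≠ 0 := by
    rw [Ne, map_eq_zero_iff _ hinj, EmbeddingLike.map_eq_zero_iff]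
    exact whDiv_den_ne_zero hB hB0
  have h2 : algebraMap (WH (Gamma0 N)) (WHField (Gamma0 N)) (whDiv N (isFormLike_den hB')) ≠ 0 := by
    rw [Ne, map_eq_zero_iff _ hinj]
    exact whDiv_den_ne_zero hB' hB'0
  rw [formRatio, formRatio, map_div₀, wField_algebraMap, wField_algebraMap, div_eq_div_iff h1 h2,
    ← map_mul, ← map_mul]
  congr 1
  apply Subtype.ext
  funext z
  have hz := h z
  have hΔ : Δ z ≠ 0 := discriminant_ne_zero z
  have hΔ' : Δ (wH N z) ≠ 0 := discriminant_ne_zero _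
  show (whDiv N (isFormLike_num hA hB) : ℍ → ℂ) (wH N z) * (whDiv N (isFormLike_den hB') : ℍ → ℂ) z =
    (whDiv N (isFormLike_num hA' hB') : ℍ → ℂ) z * (whDiv N (isFormLike_den hB) : ℍ → ℂ) (wH N z)
  simp only [whDiv_apply, Pi.mul_apply, Pi.pow_apply]
  field_simp
  linear_combination (B' z ^ 11 * B (wH N z) ^ 11) * (-hz)

/-! ### Rational `q`-expansions: the quotient as an element of `FF ℚ N` -/

/-- `a` is the (rational) `q`-expansion of `A`. -/
def HasRatQ (A : ℍ → ℂ) (a : PowerSeries ℚ) : Prop :=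
  qExpansion 1 A = a.map (algebraMap ℚ ℂ)

local notation "ofQ" => HahnSeries.ofPowerSeries ℤ ℚ

theorem coeffEmb_ratio (a b : PowerSeries ℚ) :
    coeffEmb ℂ (ofQ a / ofQ b) =
      ofPS (a.map (algebraMap ℚ ℂ)) / ofPS (b.map (algebraMap ℚ ℂ)) := by
  rw [map_div₀, coeffEmb, coeffMap_ofPowerSeries, coeffMap_ofPowerSeries]

/-- The weight-zero quotient of two forms with rational `q`-expansions lies in
`ℚ(j(q^d) : d ∣ N)`. -/
theorem ratio_mem {k : ℕ} {A B : ℍ → ℂ} (hA : IsFormLike (Gamma0 N) k A)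
    (hB : IsFormLike (Gamma0 N) k B) (hB0 : B ≠ 0) {a b : PowerSeries ℚ}
    (ha : HasRatQ A a) (hb : HasRatQ B b) :
    (ofQ a / ofQ b : LaurentSeries ℚ) ∈ modularFunctionFieldFullC ℚ N := by
  apply Descent.mem_fullC_rat_of_mem_FC
  rw [coeffEmb_ratio, ← ha, ← hb, ← qexpField_formRatio hA hB hB0, ← coe_fieldEquiv]
  exact (fieldEquiv N _).2

/-- The quotient `A / B` as an element of `FF ℚ N`. -/
noncomputable def ratioFF {k : ℕ} {A B : ℍ → ℂ} (hA : IsFormLike (Gamma0 N) k A)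
    (hB : IsFormLike (Gamma0 N) k B) (hB0 : B ≠ 0) {a b : PowerSeries ℚ}
    (ha : HasRatQ A a) (hb : HasRatQ B b) : FF ℚ N :=
  ⟨ofQ a / ofQ b, ratio_mem hA hB hB0 ha hb⟩

theorem coe_ratioFF {k : ℕ} {A B : ℍ → ℂ} (hA : IsFormLike (Gamma0 N) k A)
    (hB : IsFormLike (Gamma0 N) k B) (hB0 : B ≠ 0) {a b : PowerSeries ℚ}
    (ha : HasRatQ A a) (hb : HasRatQ B b) :
    ((ratioFF hA hB hB0 ha hb : FF ℚ N) : LaurentSeries ℚ) = ofQ a / ofQ b := rfl

theorem toFC_ratioFF {k : ℕ} {A B : ℍ → ℂ} (hA : IsFormLike (Gamma0 N) k A)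
    (hB : IsFormLike (Gamma0 N) k B) (hB0 : B ≠ 0) {a b : PowerSeries ℚ}
    (ha : HasRatQ A a) (hb : HasRatQ B b) :
    toFC N (ratioFF hA hB hB0 ha hb) = fieldEquiv N (formRatio hA hB) := by
  apply Subtype.ext
  rw [coe_toFC, coe_ratioFF, coeffEmb_ratio, ← ha, ← hb, coe_fieldEquiv,
    qexpField_formRatio hA hB hB0]

/-- **Atkin–Lehner on quotients with rational `q`-expansions, in `FF ℚ N`.** -/
theorem wFF_ratioFF {k k' : ℕ} {A B A' B' : ℍ → ℂ}
    (hA : IsFormLike (Gamma0 N) k A) (hB : IsFormLike (Gamma0 N) k B)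
    (hA' : IsFormLike (Gamma0 N) k' A') (hB' : IsFormLike (Gamma0 N) k' B')
    (hB0 : B ≠ 0) (hB'0 : B' ≠ 0) {a b a' b' : PowerSeries ℚ}
    (ha : HasRatQ A a) (hb : HasRatQ B b) (ha' : HasRatQ A' a') (hb' : HasRatQ B' b')
    (h : ∀ z : ℍ, A' z * B (wH N z) = B' z * A (wH N z)) :
    wFF N (ratioFF hA hB hB0 ha hb) = ratioFF hA' hB' hB'0 ha' hb' := by
  apply toFC_injective N
  rw [toFC_wFF, toFC_ratioFF, toFC_ratioFF, wC_fieldEquiv, wField_formRatio hA hB hA' hB' hB0 hB'0 h]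

end Fermat.Agent.S16.Bridge
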