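/-
S16 / QEP bridge, part 7 (helper16): **level raising `F ↦ F(d ·)` for form-like functions.**

* `IsFormLike.const_smul / .neg / .add / .sub` : linear closure;
* `isFormLike_iff_isMF` : `IsFormLike Γ k F ↔ M2F.IsMF Γ k F`;
* `IsFormLike.comp_scaleH` : `F` of level one, `d ∣ N` ⇒ `F ∘ scaleH d` is form-like on `Γ₀(N)`;
* `IsFormLike.isHol_comp_scaleH`, `qExpansion_comp_scaleH` : its `q`-expansion is `expand d`;
* `IsFormLike.apply_wH` : `F (wH N z) = (N z) ^ k * F (N z)` for `F` of level one;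
* `IsFormLike.ofLevelOne`, `IsFormLike.ofLevelOne_comp_scaleH`, `isFormLike_discriminant_comp_scaleH`.
-/
import Mathlib
import Fermat.Agent.S16.Bridge.AtkinLehnerWH
import Fermat.Agent.S16.Bridge.FormRatio
import Fermat.Agent.M2F.LevelRaise
import Fermat.Agent.S24.QExpScale

set_option autoImplicit false
set_option linter.unusedSectionVars false

namespace Fermat.Agent.S16.Bridge

open UpperHalfPlane ModularForm MatrixGroups CongruenceSubgroup Filter Function
open Fermat.Agent.M2 Fermat.Agent.S24.QExp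
open scoped Manifold Topology

local notation "Δ" => ModularForm.discriminant

namespace IsFormLike

variable {Γ : Subgroup SL(2, ℤ)} {k : ℤ} {F G : ℍ → ℂ}

theorem const_smul (c : ℂ) (hF : IsFormLike Γ k F) : IsFormLike Γ k (c • F) := by
  refine ⟨hF.mdiff.const_smul c, fun γ hγ z => ?_, fun δ => ?_⟩
  · simp only [Pi.smul_apply, smul_eq_mul]
    rw [hF.slash γ hγ z]
    ring
  · have := (hF.bdd δ).const_smul_left c
    have e : (fun z : ℍ => (c • F) (δ • z) * denom δ z ^ (-k)) =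
        c • fun z : ℍ => F (δ • z) * denom δ z ^ (-k) := by
      funext z
      simp only [Pi.smul_apply, smul_eq_mul]
      ring
    rw [e]
    exact this

theorem neg (hF : IsFormLike Γ k F) : IsFormLike Γ k (-F) := by
  have := hF.const_smul (-1)
  simpa using this

theorem add (hF : IsFormLike Γ k F) (hG : IsFormLike Γ k G) : IsFormLike Γ k (F + G) := by
  refine ⟨hF.mdiff.add hG.mdiff, fun γ hγ z => ?_, fun δ => ?_⟩
  · simp only [Pi.add_apply]
    rw [hF.slash γ hγ z, hG.slash γ hγ z]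
    ring
  · have := (hF.bdd δ).add (hG.bdd δ)
    have e : (fun z : ℍ => (F + G) (δ • z) * denom δ z ^ (-k)) =
        (fun z : ℍ => F (δ • z) * denom δ z ^ (-k)) + fun z : ℍ => G (δ • z) * denom δ z ^ (-k) := by
      funext z
      simp only [Pi.add_apply]
      ring
    rw [e]
    exact this

theorem sub (hF : IsFormLike Γ k F) (hG : IsFormLike Γ k G) : IsFormLike Γ k (F - G) := by
  rw [sub_eq_add_neg]
  exact hF.add hG.neg

end IsFormLike

/-- `IsFormLike` is the function-level predicate `M2F.IsMF`. -/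
theorem isFormLike_iff_isMF {Γ : Subgroup SL(2, ℤ)} {k : ℤ} {F : ℍ → ℂ} :
    IsFormLike Γ k F ↔ Fermat.Agent.M2F.IsMF Γ k F := by
  constructor
  · intro h
    refine ⟨h.mdiff, fun γ hγ => ?_, fun δ => ?_⟩
    · funext z
      have hd : denom γ z ≠ 0 := denom_ne_zero γ z
      rw [SL_slash_apply, h.slash γ hγ z, zpow_neg]
      field_simp
    · rw [SL_slash_def]
      exact h.bdd δ
  · intro h
    refine ⟨h.holo, fun γ hγ z => ?_, fun δ => ?_⟩
    · have hd : denom γ z ≠ 0 := denom_ne_zero γ z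
      have := congrFun (h.inv γ hγ) z
      rw [SL_slash_apply, zpow_neg] at this
      rw [← this]
      field_simp
    · have := h.bdd δ
      rwa [SL_slash_def] at this

theorem heckeDiag_smul_eq_scaleH (d : ℕ) [NeZero d] (z : ℍ) :
    ModularForm.heckeDiagMatrix d • z = JN.scaleH d z := by
  apply UpperHalfPlane.ext
  rw [Fermat.Agent.M2F.LevelRaise.coe_heckeDiag_smul, JN.coe_scaleH]

theorem comp_scaleH_eq_smul_slash (d : ℕ) [NeZero d] (k : ℤ) (F : ℍ → ℂ) :
    F ∘ JN.scaleH d = ((d : ℂ) ^ (k - 1))⁻¹ • (F ∣[k] ModularForm.heckeDiagMatrix d) := by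
  funext z
  have hd : (d : ℂ) ≠ 0 := Nat.cast_ne_zero.mpr (NeZero.ne d)
  have hd' : (d : ℂ) ^ (k - 1) ≠ 0 := zpow_ne_zero _ hd
  rw [Pi.smul_apply, Fermat.Agent.M2F.LevelRaise.slash_heckeDiag_apply, heckeDiag_smul_eq_scaleH,
    comp_apply, smul_eq_mul]
  field_simp

/-- **Level raising**: a level-one form-like `F` gives `F(d ·)` form-like on `Γ₀(N)`, `d ∣ N`. -/
theorem IsFormLike.comp_scaleH {N d : ℕ} [NeZero N] [NeZero d] {k : ℤ} {F : ℍ → ℂ}
    (hF : IsFormLike ⊤ k F) (hd : d ∣ N) : IsFormLike (Gamma0 N) k (F ∘ JN.scaleH d) := by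
  have h1 : Fermat.Agent.M2F.IsMF (Gamma0 d) k (F ∣[k] ModularForm.heckeDiagMatrix d) :=
    Fermat.Agent.M2F.LevelRaise.isMF_slash_heckeDiag d (isFormLike_iff_isMF.mp hF)
  have h2 : IsFormLike (Gamma0 d) k (F ∣[k] ModularForm.heckeDiagMatrix d) :=
    isFormLike_iff_isMF.mpr h1
  have h3 := h2.const_smul ((d : ℂ) ^ (k - 1))⁻¹
  rw [← comp_scaleH_eq_smul_slash] at h3
  refine h3.mono ?_
  intro γ hγ
  rw [Gamma0_mem] at hγ ⊢
  have : (N : ℤ) ∣ γ 1 0 := (ZMod.intCast_zmod_eq_zero_iff_dvd _ _).mp hγ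
  exact (ZMod.intCast_zmod_eq_zero_iff_dvd _ _).mpr
    (dvd_trans (Int.natCast_dvd_natCast.mpr hd) this)

/-- Level one form-like functions are `IsHol`. -/
theorem IsFormLike.isHol_top {k : ℤ} {F : ℍ → ℂ} (hF : IsFormLike ⊤ k F) : IsHol F :=
  hF.isHol (Subgroup.mem_top _)

theorem IsFormLike.qExpansion_comp_scaleH {k : ℤ} {F : ℍ → ℂ} (hF : IsFormLike ⊤ k F)
    (d : ℕ) [NeZero d] :
    qExpansion 1 (F ∘ JN.scaleH d) = PowerSeries.expand d (NeZero.ne d) (qExpansion 1 F) := by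
  ext n
  rw [qExpansion_comp_scaleH_coeff d hF.isHol_top, PowerSeries.coeff_expand]

/-- **Fricke transform of a level-one form**: `F (-1/(N z)) = (N z) ^ k F (N z)`. -/
theorem IsFormLike.apply_wH {k : ℤ} {F : ℍ → ℂ} (hF : IsFormLike ⊤ k F) (N : ℕ) [NeZero N]
    (z : ℍ) : F (wH N z) = ((N : ℂ) * z) ^ k * F (JN.scaleH N z) := by
  rw [wH, hF.slash ModularGroup.S (Subgroup.mem_top _)]
  congr 2
  rw [ModularGroup.denom_S, JN.coe_scaleH]

/-- A level-one modular form is form-like of level `⊤`. -/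
theorem IsFormLike.ofLevelOne {k : ℤ} (f : ModularForm 𝒮ℒ k) : IsFormLike ⊤ k (f : ℍ → ℂ) := by
  refine ⟨f.holo', fun γ _ z => ?_, fun δ => ?_⟩
  · have h := SlashInvariantForm.slash_action_eqn f (Matrix.SpecialLinearGroup.mapGL ℝ γ) ⟨γ, rfl⟩
    have h2 : ((f : ℍ → ℂ) ∣[k] γ) z = f z := congrFun h z
    have hd : denom γ z ≠ 0 := denom_ne_zero γ z
    rw [SL_slash_apply, zpow_neg] at h2
    rw [← h2]
    field_simp
  · have := ModularFormClass.bdd_at_infty_slash f δ
    rwa [SL_slash_def] at this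

/-- `f(d ·)` for a level-one modular form `f`, `d ∣ N`. -/
theorem IsFormLike.ofLevelOne_comp_scaleH {N d : ℕ} [NeZero N] [NeZero d] {k : ℤ}
    (f : ModularForm 𝒮ℒ k) (hd : d ∣ N) :
    IsFormLike (Gamma0 N) k ((f : ℍ → ℂ) ∘ JN.scaleH d) :=
  (IsFormLike.ofLevelOne f).comp_scaleH hd

theorem isFormLike_discriminant_comp_scaleH {N d : ℕ} [NeZero N] [NeZero d] (hd : d ∣ N) :
    IsFormLike (Gamma0 N) 12 ((Δ : ℍ → ℂ) ∘ JN.scaleH d) :=
  (IsFormLike.discriminant (Γ := ⊤)).comp_scaleH hd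

end Fermat.Agent.S16.Bridge
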