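/-
S16 / QEP bridge, part 6 (helper16): **the two-cusp principle in `ModularForm` language.**

`O = ℤ_(ℓ)`, `ℓ ∤ p`.  Let `A, B ∈ M_k(Γ₀(p))` and let `a, b, a', b' ∈ O⟦q⟧` be the `q`-expansions of
`A, B, A|w_p, B|w_p`.  If `b̄ ≠ 0` (e.g. `b` has a unit constant term) and `ℓ^t` divides `a`
coefficientwise, then `ℓ^t` divides `a'` coefficientwise
(`pow_dvd_coeff_slashW`).  [For `B` take a level-one form such as `E₆` or `E₄ E₆` restricted to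
`Γ₀(p)`: `B|w_p = p^{k-1} B(p z)` has integral `q`-expansion.]

Also `fricke_gauss_slashW_C` : `ℚ`-linearity of the bridge (`c · a / b ∈ gaussRing ⇒ c · a' / b' ∈
gaussRing`).
-/
import Mathlib
import Fermat.Agent.S16.Bridge.SlashW

set_option autoImplicit false
set_option linter.unusedSectionVars false
set_option linter.style.haveILetI false

open ModularCurve Fermat.Agent.S28.Gauss Fermat.Agent.N4.Setting
open UpperHalfPlane ModularForm MatrixGroups CongruenceSubgroup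
open Fermat.Agent.S16.AtkinLehnerU Fermat.Agent.M2 Fermat.Agent.S28.LocalizedInt
open Fermat.Agent.N4.FibreEmbedding Fermat.Agent.N4F.E.GaussDVR

noncomputable section

namespace Fermat.Agent.S16.Bridge

local notation "ofQ" => HahnSeries.ofPowerSeries ℤ ℚ

variable (p : ℕ) [NeZero p] (ℓ : ℕ) [hℓ : Fact ℓ.Prime]

/-- the rational constant `c` as an element of `FF ℚ N` has `q`-expansion `C c` -/
theorem coe_ratCast_FF (N : ℕ) (c : ℚ) :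
    (((c : ℚ) : FF ℚ N) : LaurentSeries ℚ) = HahnSeries.C c := by
  have h : (((c : ℚ) : FF ℚ N) : LaurentSeries ℚ) = ((c : ℚ) : LaurentSeries ℚ) := rfl
  rw [h]
  exact (eq_ratCast (HahnSeries.C : ℚ →+* LaurentSeries ℚ) c).symm

/-- **`ℚ`-linear form of the bridge.** -/
theorem fricke_gauss_slashW_C (hℓp : ¬ ℓ ∣ p) {k : ℕ} (A B : ModularForm (Gamma0 p) (k : ℤ))
    (hB0 : (B : ℍ → ℂ) ≠ 0) {a b a' b' : PowerSeries ℚ}
    (ha : HasRatQ A a) (hb : HasRatQ B b)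
    (ha' : HasRatQ (slashW p A) a') (hb' : HasRatQ (slashW p B) b') (c : ℚ)
    (hint : (HahnSeries.C c * (ofQ a / ofQ b) : LaurentSeries ℚ) ∈
      gaussRing ↥(GaloisRep.ratLocalizedAt ℓ) ℚ) :
    (HahnSeries.C c * (ofQ a' / ofQ b') : LaurentSeries ℚ) ∈
      gaussRing ↥(GaloisRep.ratLocalizedAt ℓ) ℚ := by
  have hA := IsFormLike.ofModularForm A
  have hB := IsFormLike.ofModularForm B
  have hA' := IsFormLike.ofModularForm (slashW p A)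
  have hB' := IsFormLike.ofModularForm (slashW p B)
  have hB'0 := slashW_ne_zero p B hB0
  set x := ratioFF hA hB hB0 ha hb with hx
  set x' := ratioFF hA' hB' hB'0 ha' hb' with hx'
  have hw : wFF p x = x' := wFF_ratioFF hA hB hA' hB' hB0 hB'0 ha hb ha' hb' (slashW_cross p A B)
  have h1 : ((c : ℚ) : FF ℚ p) * x ∈ gaussVS ℚ p (GaloisRep.ratLocalizedAt ℓ) := by
    rw [mem_gaussVS_iff, mem_gaussSubalgebra_iff]
    have : ((((c : ℚ) : FF ℚ p) * x : FF ℚ p) : LaurentSeries ℚ) =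
        HahnSeries.C c * (ofQ a / ofQ b) := by
      rw [← coe_ratCast_FF p c, ← coe_ratioFF hA hB hB0 ha hb]
      rfl
    rw [this]
    exact hint
  have h2 := (wFF_mem_gaussVS_iff_rat p ℓ hℓp _).mpr h1
  rw [map_mul, map_ratCast, hw, mem_gaussVS_iff, mem_gaussSubalgebra_iff] at h2
  have : ((((c : ℚ) : FF ℚ p) * x' : FF ℚ p) : LaurentSeries ℚ) =
      HahnSeries.C c * (ofQ a' / ofQ b') := by
    rw [← coe_ratCast_FF p c, ← coe_ratioFF hA' hB' hB'0 ha' hb']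
    rfl
  rw [this] at h2
  exact h2

/-! ### Divisibility of `q`-expansions is preserved by `w_p` -/

/-- coefficientwise `ℤ_(ℓ) → ℚ` on power series -/
abbrev toQ (x : PowerSeries ↥(GaloisRep.ratLocalizedAt ℓ)) : PowerSeries ℚ :=
  x.map (algebraMap ↥(GaloisRep.ratLocalizedAt ℓ) ℚ)

theorem emb_ofPowerSeries (x : PowerSeries ↥(GaloisRep.ratLocalizedAt ℓ)) :
    emb ↥(GaloisRep.ratLocalizedAt ℓ) ℚ (HahnSeries.ofPowerSeries ℤ _ x) = ofQ (toQ ℓ x) :=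
  coeffMap_ofPowerSeries _ x

theorem toQ_injective : Function.Injective (toQ ℓ) :=
  PowerSeries.map_injective _ (IsFractionRing.injective ↥(GaloisRep.ratLocalizedAt ℓ) ℚ)

/-- **Two-cusp principle.**  `ℓ ∤ p`; `A, B ∈ M_k(Γ₀(p))` with `q`-expansions `a, b ∈ ℤ_(ℓ)⟦q⟧`,
`A|w_p, B|w_p` with `q`-expansions `a', b' ∈ ℤ_(ℓ)⟦q⟧`; `b̄ ≠ 0`.
If `ℓ^t ∣ a` coefficientwise then `ℓ^t ∣ a'` coefficientwise. -/
theorem pow_dvd_coeff_slashW (hℓp : ¬ ℓ ∣ p) {k : ℕ} (A B : ModularForm (Gamma0 p) (k : ℤ))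
    (hB0 : (B : ℍ → ℂ) ≠ 0) {a b a' b' : PowerSeries ↥(GaloisRep.ratLocalizedAt ℓ)}
    (ha : HasRatQ A (toQ ℓ a)) (hb : HasRatQ B (toQ ℓ b))
    (ha' : HasRatQ (slashW p A) (toQ ℓ a')) (hb' : HasRatQ (slashW p B) (toQ ℓ b'))
    (hbred : red ↥(GaloisRep.ratLocalizedAt ℓ) (HahnSeries.ofPowerSeries ℤ _ b) ≠ 0) (t : ℕ)
    (hdiv : ∀ n, ((ℓ : ↥(GaloisRep.ratLocalizedAt ℓ)) ^ t) ∣ PowerSeries.coeff n a) :
    ∀ n, ((ℓ : ↥(GaloisRep.ratLocalizedAt ℓ)) ^ t) ∣ PowerSeries.coeff n a' := by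
  have hϖ : Irreducible (ℓ : ↥(GaloisRep.ratLocalizedAt ℓ)) := irreducible_ell ℓ
  have hϖQ : algebraMap ↥(GaloisRep.ratLocalizedAt ℓ) ℚ ((ℓ : ↥(GaloisRep.ratLocalizedAt ℓ)) ^ t) ≠ 0 := by
    rw [Ne, map_eq_zero_iff _ (IsFractionRing.injective ↥(GaloisRep.ratLocalizedAt ℓ) ℚ)]
    exact pow_ne_zero t hϖ.ne_zero
  -- `a = (ℓ : ↥(GaloisRep.ratLocalizedAt ℓ))^t • a₁`
  choose c hc using hdiv
  set a₁ : PowerSeries ↥(GaloisRep.ratLocalizedAt ℓ) := PowerSeries.mk c with ha₁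
  have haa₁ : a = PowerSeries.C ((ℓ : ↥(GaloisRep.ratLocalizedAt ℓ)) ^ t) * a₁ := by
    ext n
    rw [PowerSeries.coeff_C_mul, ha₁, PowerSeries.coeff_mk, hc n]
  have hQa : ofQ (toQ ℓ a) = HahnSeries.C (algebraMap ↥(GaloisRep.ratLocalizedAt ℓ) ℚ ((ℓ : ↥(GaloisRep.ratLocalizedAt ℓ)) ^ t)) * ofQ (toQ ℓ a₁) := by
    rw [haa₁, toQ, map_mul, PowerSeries.map_C, map_mul, HahnSeries.ofPowerSeries_C]
  -- `b, b' ≠ 0`
  have hb0 : ofQ (toQ ℓ b) ≠ 0 := by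
    rw [← emb_ofPowerSeries]
    intro h
    apply hbred
    rw [(emb_eq_zero_iff ℚ).mp h, map_zero]
  have hT := Fermat.Agent.S24.QExp.T_mem_Gamma0 p
  have hB'0 := slashW_ne_zero p B hB0
  have hb'0 : ofQ (toQ ℓ b') ≠ 0 := by
    intro h
    have h1 : toQ ℓ b' = 0 := by
      have := HahnSeries.ofPowerSeries_injective (Γ := ℤ) (R := ℚ)
      exact this (by rw [h, map_zero])
    have h2 := ((IsFormLike.ofModularForm (slashW p B)).isHol hT).ofPS_ne_zero hB'0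
    rw [hb', h1, map_zero, map_zero] at h2
    exact h2 rfl
  -- the hypothesis of the bridge
  have hint : (HahnSeries.C (algebraMap ↥(GaloisRep.ratLocalizedAt ℓ) ℚ ((ℓ : ↥(GaloisRep.ratLocalizedAt ℓ)) ^ t))⁻¹ * (ofQ (toQ ℓ a) / ofQ (toQ ℓ b)) :
      LaurentSeries ℚ) ∈ gaussRing ↥(GaloisRep.ratLocalizedAt ℓ) ℚ := by
    refine ⟨HahnSeries.ofPowerSeries ℤ _ a₁, HahnSeries.ofPowerSeries ℤ _ b, hbred, ?_⟩
    rw [emb_ofPowerSeries, emb_ofPowerSeries, hQa]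
    have hC : HahnSeries.C (algebraMap ↥(GaloisRep.ratLocalizedAt ℓ) ℚ ((ℓ : ↥(GaloisRep.ratLocalizedAt ℓ)) ^ t))⁻¹ * HahnSeries.C (algebraMap ↥(GaloisRep.ratLocalizedAt ℓ) ℚ ((ℓ : ↥(GaloisRep.ratLocalizedAt ℓ)) ^ t)) =
        (1 : LaurentSeries ℚ) := by
      rw [← map_mul, inv_mul_cancel₀ hϖQ, map_one]
    calc HahnSeries.C (algebraMap ↥(GaloisRep.ratLocalizedAt ℓ) ℚ ((ℓ : ↥(GaloisRep.ratLocalizedAt ℓ)) ^ t))⁻¹ *
          (HahnSeries.C (algebraMap ↥(GaloisRep.ratLocalizedAt ℓ) ℚ ((ℓ : ↥(GaloisRep.ratLocalizedAt ℓ)) ^ t)) * ofQ (toQ ℓ a₁) / ofQ (toQ ℓ b)) * ofQ (toQ ℓ b)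
        = (HahnSeries.C (algebraMap ↥(GaloisRep.ratLocalizedAt ℓ) ℚ ((ℓ : ↥(GaloisRep.ratLocalizedAt ℓ)) ^ t))⁻¹ * HahnSeries.C (algebraMap ↥(GaloisRep.ratLocalizedAt ℓ) ℚ ((ℓ : ↥(GaloisRep.ratLocalizedAt ℓ)) ^ t))) *
            ofQ (toQ ℓ a₁) * (ofQ (toQ ℓ b) / ofQ (toQ ℓ b)) := by ring
      _ = ofQ (toQ ℓ a₁) := by rw [hC, div_self hb0, one_mul, mul_one]
  have hy := fricke_gauss_slashW_C p ℓ hℓp A B hB0 ha hb ha' hb' _ hint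
  -- multiply by `b'`
  have hy' : (HahnSeries.C (algebraMap ↥(GaloisRep.ratLocalizedAt ℓ) ℚ ((ℓ : ↥(GaloisRep.ratLocalizedAt ℓ)) ^ t))⁻¹ * (ofQ (toQ ℓ a') / ofQ (toQ ℓ b')) *
      emb ↥(GaloisRep.ratLocalizedAt ℓ) ℚ (HahnSeries.ofPowerSeries ℤ _ b') : LaurentSeries ℚ) ∈ gaussRing ↥(GaloisRep.ratLocalizedAt ℓ) ℚ :=
    (gaussRing ↥(GaloisRep.ratLocalizedAt ℓ) ℚ).mul_mem hy (emb_mem_gaussRing _)
  have hS : algebraMap ↥(GaloisRep.ratLocalizedAt ℓ) ℚ ((ℓ : ↥(GaloisRep.ratLocalizedAt ℓ)) ^ t) •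
      (HahnSeries.C (algebraMap ↥(GaloisRep.ratLocalizedAt ℓ) ℚ ((ℓ : ↥(GaloisRep.ratLocalizedAt ℓ)) ^ t))⁻¹ * (ofQ (toQ ℓ a') / ofQ (toQ ℓ b')) *
        emb ↥(GaloisRep.ratLocalizedAt ℓ) ℚ (HahnSeries.ofPowerSeries ℤ _ b') : LaurentSeries ℚ) =
      emb ↥(GaloisRep.ratLocalizedAt ℓ) ℚ (HahnSeries.ofPowerSeries ℤ _ a') := by
    rw [← HahnSeries.C_mul_eq_smul, emb_ofPowerSeries, emb_ofPowerSeries]
    have hC : HahnSeries.C (algebraMap ↥(GaloisRep.ratLocalizedAt ℓ) ℚ ((ℓ : ↥(GaloisRep.ratLocalizedAt ℓ)) ^ t)) * HahnSeries.C (algebraMap ↥(GaloisRep.ratLocalizedAt ℓ) ℚ ((ℓ : ↥(GaloisRep.ratLocalizedAt ℓ)) ^ t))⁻¹ =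
        (1 : LaurentSeries ℚ) := by
      rw [← map_mul, mul_inv_cancel₀ hϖQ, map_one]
    calc HahnSeries.C (algebraMap ↥(GaloisRep.ratLocalizedAt ℓ) ℚ ((ℓ : ↥(GaloisRep.ratLocalizedAt ℓ)) ^ t)) *
          (HahnSeries.C (algebraMap ↥(GaloisRep.ratLocalizedAt ℓ) ℚ ((ℓ : ↥(GaloisRep.ratLocalizedAt ℓ)) ^ t))⁻¹ * (ofQ (toQ ℓ a') / ofQ (toQ ℓ b')) *
            ofQ (toQ ℓ b'))
        = (HahnSeries.C (algebraMap ↥(GaloisRep.ratLocalizedAt ℓ) ℚ ((ℓ : ↥(GaloisRep.ratLocalizedAt ℓ)) ^ t)) * HahnSeries.C (algebraMap ↥(GaloisRep.ratLocalizedAt ℓ) ℚ ((ℓ : ↥(GaloisRep.ratLocalizedAt ℓ)) ^ t))⁻¹) *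
            (ofQ (toQ ℓ a') * (ofQ (toQ ℓ b') / ofQ (toQ ℓ b'))) := by ring
      _ = ofQ (toQ ℓ a') := by rw [hC, div_self hb'0, one_mul, mul_one]
  obtain ⟨S', hS'⟩ :=
    Fermat.Agent.S16.TwoCusp.Gauss.exists_pow_smul_eq_of_mem_gaussRing ℚ hϖ t hy' hS
  intro n
  refine ⟨S'.coeff n, ?_⟩
  have := congrArg (fun x : LaurentSeries ↥(GaloisRep.ratLocalizedAt ℓ) => x.coeff (n : ℤ)) hS'
  simp only [HahnSeries.coeff_smul, smul_eq_mul] at this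
  rw [← this]
  exact (HahnSeries.ofPowerSeries_apply_coeff (Γ := ℤ) a' n).symm

end Fermat.Agent.S16.Bridge
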