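/-
S16 / QEP bridge, part 7 (helper16): **the two-cusp principle in the shared `ZLoc` vocabulary**
(`S16/LInt.lean`): complex `q`-expansions with coefficients in `ZLoc ℓ = ℤ_(ℓ) ⊂ ℂ`.

`zlocPow_coeff_slashW` : `ℓ ∤ p`, `A, B ∈ M_k(Γ₀(p))`; the `q`-expansions of `B`, `A|w_p`, `B|w_p` have
coefficients in `ZLoc ℓ`, the constant coefficient of `B` is an `ℓ`-unit, and all coefficients of the
`q`-expansion of `A` lie in `ℓ^t ZLoc ℓ`.  Then all coefficients of the `q`-expansion of `A|w_p` lie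
in `ℓ^t ZLoc ℓ`.
-/
import Mathlib
import Fermat.Agent.S16.Bridge.TwoCuspCore
import Fermat.Agent.S16.LInt

set_option autoImplicit false
set_option linter.unusedSectionVars false
set_option linter.style.haveILetI false
set_option linter.style.longLine false

open ModularCurve Fermat.Agent.S28.Gauss
open UpperHalfPlane ModularForm MatrixGroups CongruenceSubgroup
open Fermat.Agent.S16.AtkinLehnerU Fermat.Agent.S28.LocalizedInt Fermat.Agent.S16.LInt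

noncomputable section

namespace Fermat.Agent.S16.Bridge

variable (p : ℕ) [NeZero p] (ℓ : ℕ) [hℓ : Fact ℓ.Prime]

/-- coefficientwise `ℤ_(ℓ) → ℂ` -/
abbrev toC (x : PowerSeries ↥(GaloisRep.ratLocalizedAt ℓ)) : PowerSeries ℂ :=
  (toQ ℓ x).map (algebraMap ℚ ℂ)

theorem coeff_toC (x : PowerSeries ↥(GaloisRep.ratLocalizedAt ℓ)) (n : ℕ) :
    PowerSeries.coeff n (toC ℓ x) = (((PowerSeries.coeff n x : ↥(GaloisRep.ratLocalizedAt ℓ)) : ℚ) : ℂ) := by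
  simp only [toC, toQ, PowerSeries.coeff_map]
  rfl

/-- A complex power series with coefficients in `ZLoc ℓ` comes from a series over `ℤ_(ℓ)`. -/
theorem exists_toC_eq {P : PowerSeries ℂ} (h : ∀ n, PowerSeries.coeff n P ∈ ZLoc ℓ) :
    ∃ a : PowerSeries ↥(GaloisRep.ratLocalizedAt ℓ), P = toC ℓ a := by
  have h' : ∀ n, ∃ r : ↥(GaloisRep.ratLocalizedAt ℓ), (((r : ℚ)) : ℂ) = PowerSeries.coeff n P := by
    intro n
    obtain ⟨r, hr, hrx⟩ := h n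
    exact ⟨⟨r, hr⟩, by simpa using hrx⟩
  choose r hr using h'
  refine ⟨PowerSeries.mk r, ?_⟩
  ext n
  rw [coeff_toC, PowerSeries.coeff_mk, hr]

theorem zlocPow_coeff_slashW (hℓp : ¬ ℓ ∣ p) {k : ℕ} (A B : ModularForm (Gamma0 p) (k : ℤ)) (t : ℕ)
    (hA : ∀ n, PowerSeries.coeff n (qExpansion 1 A) ∈ ZLocPow ℓ t)
    (hB : ∀ n, PowerSeries.coeff n (qExpansion 1 B) ∈ ZLoc ℓ)
    (hB0 : PowerSeries.coeff 0 (qExpansion 1 B) ∉ ZLocMax ℓ)
    (hA' : ∀ n, PowerSeries.coeff n (qExpansion 1 (slashW p A)) ∈ ZLoc ℓ)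
    (hB' : ∀ n, PowerSeries.coeff n (qExpansion 1 (slashW p B)) ∈ ZLoc ℓ) :
    ∀ n, PowerSeries.coeff n (qExpansion 1 (slashW p A)) ∈ ZLocPow ℓ t := by
  obtain ⟨a, ha⟩ := exists_toC_eq ℓ (fun n => ZLocPow_le_ZLoc ℓ t (hA n))
  obtain ⟨b, hb⟩ := exists_toC_eq ℓ hB
  obtain ⟨a', ha'⟩ := exists_toC_eq ℓ hA'
  obtain ⟨b', hb'⟩ := exists_toC_eq ℓ hB'
  -- `B ≠ 0`
  have hBne : (B : ℍ → ℂ) ≠ 0 := by
    intro h
    apply hB0
    have hT := Fermat.Agent.S24.QExp.T_mem_Gamma0 p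
    have hq : qExpansion 1 (B : ℍ → ℂ) = 0 :=
      (((IsFormLike.ofModularForm B).isHol hT).qExpansion_eq_zero_iff).mpr h
    rw [hq, map_zero]
    exact (ZLocMax ℓ).zero_mem
  -- divisibility of `a`
  have hdiv : ∀ n, ((ℓ : ↥(GaloisRep.ratLocalizedAt ℓ)) ^ t) ∣ PowerSeries.coeff n a := by
    intro n
    obtain ⟨y, hy, hxy⟩ := (mem_ZLocPow_iff ℓ).mp (hA n)
    obtain ⟨s, hs, rfl⟩ := hy
    refine ⟨⟨s, hs⟩, ?_⟩
    apply Subtype.ext
    have h1 : (((PowerSeries.coeff n a : ↥(GaloisRep.ratLocalizedAt ℓ)) : ℚ) : ℂ) =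
        (ℓ : ℂ) ^ t * ((s : ℚ) : ℂ) := by
      rw [← coeff_toC, ← ha, hxy]
      rfl
    have h2 : ((PowerSeries.coeff n a : ↥(GaloisRep.ratLocalizedAt ℓ)) : ℚ) = (ℓ : ℚ) ^ t * s := by
      exact_mod_cast h1
    rw [h2]
    push_cast
    rfl
  -- the reduction of `b` is nonzero
  have hbred : red ↥(GaloisRep.ratLocalizedAt ℓ) (HahnSeries.ofPowerSeries ℤ _ b) ≠ 0 := by
    intro h
    apply hB0
    have h0 := congrArg (fun x : LaurentSeries _ => x.coeff 0) h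
    simp only [red_coeff, HahnSeries.coeff_zero] at h0
    have h1 : (HahnSeries.ofPowerSeries ℤ _ b).coeff ((0 : ℕ) : ℤ) = PowerSeries.coeff 0 b :=
      HahnSeries.ofPowerSeries_apply_coeff b 0
    rw [Nat.cast_zero] at h1
    rw [h1, IsLocalRing.residue_eq_zero_iff, maximalIdeal_eq, Ideal.mem_span_singleton] at h0
    obtain ⟨s, hs⟩ := h0
    rw [mem_ZLocMax_iff']
    refine ⟨((s : ℚ) : ℂ), ⟨(s : ℚ), s.2, rfl⟩, ?_⟩
    rw [hb, coeff_toC, hs]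
    push_cast
    rfl
  have key := pow_dvd_coeff_slashW p ℓ hℓp A B hBne (a := a) (b := b) (a' := a') (b' := b')
    ha hb ha' hb' hbred t hdiv
  intro n
  obtain ⟨s, hs⟩ := key n
  rw [mem_ZLocPow_iff]
  refine ⟨((s : ℚ) : ℂ), ⟨(s : ℚ), s.2, rfl⟩, ?_⟩
  rw [ha', coeff_toC, hs]
  push_cast
  rfl

end Fermat.Agent.S16.Bridge
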